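import Mathlib
import Fermat.Prelude.Def_ModularCurve_ModularUnit

/-!
# S16 lower bound, piece (1): the Shimura character `ψ : Γ₀(p) → (ℤ/p)ˣ`, `(a b; c d) ↦ a mod p`.
-/

set_option autoImplicit false

open scoped MatrixGroups
open CongruenceSubgroup

namespace Fermat.Agent.S16.LB

variable (p : ℕ) [Fact p.Prime]

/-- The upper-left entry modulo `p`, as a monoid homomorphism `Γ₀(p) → ℤ/p`. -/
def psiZMod : Gamma0 p →* ZMod p where
  toFun g := ((g.1 0 0 : ℤ) : ZMod p)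
  map_one' := by simp
  map_mul' := by
    rintro ⟨A, hA⟩ ⟨B, hB⟩
    have h := (Matrix.two_mul_expl A.1 B.1).1
    have hB' : ((B 1 0 : ℤ) : ZMod p) = 0 := Gamma0_mem.mp hB
    simp only [MulMemClass.mk_mul_mk, Matrix.SpecialLinearGroup.coe_mul, h, Int.cast_add,
      Int.cast_mul, hB', mul_zero, add_zero]

/-- The upper-left entry modulo `p`, as a group homomorphism `Γ₀(p) → (ℤ/p)ˣ`. -/
noncomputable def psiUnit : Gamma0 p →* (ZMod p)ˣ := (psiZMod p).toHomUnits

theorem psiUnit_val (γ : Gamma0 p) :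
    ((psiUnit p γ : (ZMod p)ˣ) : ZMod p) = (((γ : SL(2, ℤ)) 0 0 : ℤ) : ZMod p) := rfl

/-- For `γ ∈ Γ₀(p)` the diagonal entries are inverse to each other modulo `p`. -/
theorem diag_mul_eq_one (γ : Gamma0 p) :
    (((γ : SL(2, ℤ)) 0 0 : ℤ) : ZMod p) * (((γ : SL(2, ℤ)) 1 1 : ℤ) : ZMod p) = 1 := by
  have hdet := (γ : SL(2, ℤ)).det_coe
  rw [Matrix.det_fin_two] at hdet
  have hc : (((γ : SL(2, ℤ)) 1 0 : ℤ) : ZMod p) = 0 := Gamma0_mem.mp γ.2
  have := congrArg (Int.cast : ℤ → ZMod p) hdet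
  push_cast at this
  rw [hc, mul_zero, sub_zero] at this
  exact this

/-- Parabolic (`tr² = 4`, including `±1`) and elliptic (`tr² = 1`, `tr = 0`) elements have
`ψ ^ 12 = 1`. -/
theorem psiUnit_pow_twelve (γ : Gamma0 p)
    (h : ((γ : SL(2, ℤ)) : Matrix (Fin 2) (Fin 2) ℤ).trace ^ 2 = 4 ∨
         ((γ : SL(2, ℤ)) : Matrix (Fin 2) (Fin 2) ℤ).trace ^ 2 = 1 ∨
         ((γ : SL(2, ℤ)) : Matrix (Fin 2) (Fin 2) ℤ).trace = 0) :
    psiUnit p γ ^ 12 = 1 := by
  apply Units.ext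
  rw [Units.val_pow_eq_pow_val, psiUnit_val, Units.val_one]
  have hxy := diag_mul_eq_one p γ
  set x : ZMod p := (((γ : SL(2, ℤ)) 0 0 : ℤ) : ZMod p) with hx
  set y : ZMod p := (((γ : SL(2, ℤ)) 1 1 : ℤ) : ZMod p) with hy
  have htr : ((((γ : SL(2, ℤ)) : Matrix (Fin 2) (Fin 2) ℤ).trace : ℤ) : ZMod p) = x + y := by
    rw [Matrix.trace_fin_two]
    push_cast
    rfl
  rcases h with h | h | h
  · -- tr² = 4
    have h1 : (x + y) ^ 2 = 4 := by
      rw [← htr]
      have := congrArg (Int.cast : ℤ → ZMod p) h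
      push_cast at this
      exact this
    have h2 : (x - y) ^ 2 = 0 := by linear_combination h1 - 4 * hxy
    have h3 : x = y := sub_eq_zero.1 (pow_eq_zero_iff (two_ne_zero) |>.1 h2)
    have h4 : x ^ 2 = 1 := by rw [sq]; nth_rw 2 [h3]; exact hxy
    calc x ^ 12 = (x ^ 2) ^ 6 := by ring
      _ = 1 := by rw [h4, one_pow]
  · -- tr² = 1
    have h1 : (x + y) ^ 2 = 1 := by
      rw [← htr]
      have := congrArg (Int.cast : ℤ → ZMod p) h
      push_cast at this
      exact this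
    have h2 : x ^ 4 + x ^ 2 + 1 = 0 := by
      linear_combination x ^ 2 * h1 - (2 * x ^ 2 + x * y + 1) * hxy
    have h3 : x ^ 6 = 1 := by linear_combination (x ^ 2 - 1) * h2
    calc x ^ 12 = (x ^ 6) ^ 2 := by ring
      _ = 1 := by rw [h3, one_pow]
  · -- tr = 0
    have h1 : x + y = 0 := by
      rw [← htr, h, Int.cast_zero]
    have h2 : x ^ 2 = -1 := by linear_combination x * h1 - hxy
    calc x ^ 12 = (x ^ 2) ^ 6 := by ring
      _ = 1 := by rw [h2]; norm_num

theorem psiUnit_surjective : Function.Surjective (psiUnit p) := by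
  intro u
  have hp : p ≠ 0 := (Fact.out : p.Prime).ne_zero
  have : NeZero p := ⟨hp⟩
  have hcop : Nat.Coprime (u : ZMod p).val p := ZMod.val_coe_unit_coprime u
  have hcop' : IsCoprime (((u : ZMod p).val : ℕ) : ℤ) (p : ℤ) := Nat.isCoprime_iff_coprime.2 hcop
  obtain ⟨s, t, hst⟩ := hcop'
  let M : Matrix (Fin 2) (Fin 2) ℤ := !![(((u : ZMod p).val : ℕ) : ℤ), -t; (p : ℤ), s]
  have hdet : M.det = 1 := by
    rw [Matrix.det_fin_two]
    simp only [M, Matrix.of_apply, Matrix.cons_val', Matrix.cons_val_zero, Matrix.cons_val_one,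
      Matrix.empty_val', Matrix.cons_val_fin_one]
    linear_combination hst
  let g : SL(2, ℤ) := ⟨M, hdet⟩
  have hg : g ∈ Gamma0 p := by
    rw [Gamma0_mem]
    show (((p : ℤ) : ZMod p)) = 0
    simp
  refine ⟨⟨g, hg⟩, ?_⟩
  apply Units.ext
  rw [psiUnit_val]
  show ((((u : ZMod p).val : ℕ) : ℤ) : ZMod p) = (u : ZMod p)
  rw [Int.cast_natCast, ZMod.natCast_zmod_val]

/-- `(ℤ/p)ˣ` modulo its `12`-torsion is cyclic of order `eisensteinNumerator p`. -/
theorem exists_chi :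
    ∃ χ : (ZMod p)ˣ →* Multiplicative (ZMod (ModularCurve.eisensteinNumerator p)),
      Function.Surjective χ ∧ ∀ x : (ZMod p)ˣ, x ^ 12 = 1 → χ x = 1 := by
  have hp2 : 2 ≤ p := (Fact.out : p.Prime).two_le
  have hcard : Nat.card (ZMod p)ˣ = p - 1 := by
    rw [Nat.card_eq_fintype_card, ZMod.card_units]
  have hcyc : IsCyclic (ZMod p)ˣ := inferInstance
  let e : Multiplicative (ZMod (Nat.card (ZMod p)ˣ)) ≃* (ZMod p)ˣ := zmodCyclicMulEquiv hcyc
  have hdvd : ModularCurve.eisensteinNumerator p ∣ Nat.card (ZMod p)ˣ := by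
    rw [hcard]; exact ModularCurve.eisensteinNumerator_dvd p
  let c : ZMod (Nat.card (ZMod p)ˣ) →+* ZMod (ModularCurve.eisensteinNumerator p) :=
    ZMod.castHom hdvd _
  let χ : (ZMod p)ˣ →* Multiplicative (ZMod (ModularCurve.eisensteinNumerator p)) :=
    (AddMonoidHom.toMultiplicative c.toAddMonoidHom).comp e.symm.toMonoidHom
  refine ⟨χ, ?_, ?_⟩
  · intro z
    obtain ⟨a, ha⟩ := ZMod.ringHom_surjective c (Multiplicative.toAdd z)
    refine ⟨e (Multiplicative.ofAdd a), ?_⟩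
    show Multiplicative.ofAdd (c (Multiplicative.toAdd (e.symm (e (Multiplicative.ofAdd a))))) = z
    rw [MulEquiv.symm_apply_apply, toAdd_ofAdd, ha, ofAdd_toAdd]
  · intro x hx
    show Multiplicative.ofAdd (c (Multiplicative.toAdd (e.symm x))) = 1
    set a : ZMod (Nat.card (ZMod p)ˣ) := Multiplicative.toAdd (e.symm x) with ha
    have h12 : (12 : ℕ) • a = 0 := by
      have h1 : e.symm (x ^ 12) = 1 := by rw [hx, map_one]
      rw [map_pow] at h1
      have h2 := congrArg Multiplicative.toAdd h1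
      rw [toAdd_pow, toAdd_one] at h2
      exact h2
    have hm : 0 < Nat.card (ZMod p)ˣ := by rw [hcard]; omega
    have : NeZero (Nat.card (ZMod p)ˣ) := ⟨hm.ne'⟩
    have hk : ((a.val : ℕ) : ZMod (Nat.card (ZMod p)ˣ)) = a := ZMod.natCast_zmod_val a
    have hdiv : Nat.card (ZMod p)ˣ ∣ 12 * a.val := by
      rw [← ZMod.natCast_eq_zero_iff]
      push_cast
      rw [hk]
      have : (12 : ZMod (Nat.card (ZMod p)ˣ)) * a = (12 : ℕ) • a := by
        rw [nsmul_eq_mul]; norm_cast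
      rw [this, h12]
    have hn : ModularCurve.eisensteinNumerator p ∣ a.val := by
      have hdiv' : p - 1 ∣ 12 * a.val := (dvd_of_eq hcard.symm).trans hdiv
      unfold ModularCurve.eisensteinNumerator
      have hg : 0 < Nat.gcd (p - 1) 12 := Nat.gcd_pos_of_pos_right _ (by norm_num)
      have hcop : Nat.Coprime ((p - 1) / Nat.gcd (p - 1) 12) (12 / Nat.gcd (p - 1) 12) :=
        Nat.coprime_div_gcd_div_gcd hg
      obtain ⟨n, hn⟩ := Nat.gcd_dvd_left (p - 1) 12
      obtain ⟨t, ht⟩ := Nat.gcd_dvd_right (p - 1) 12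
      have hn' : (p - 1) / Nat.gcd (p - 1) 12 = n := Nat.div_eq_of_eq_mul_right hg hn
      have ht' : 12 / Nat.gcd (p - 1) 12 = t := Nat.div_eq_of_eq_mul_right hg ht
      rw [hn', ht'] at hcop
      rw [hn']
      have h3 : Nat.gcd (p - 1) 12 * n ∣ Nat.gcd (p - 1) 12 * (t * a.val) := by
        rw [← hn, ← mul_assoc, ← ht]; exact hdiv'
      have h4 : n ∣ t * a.val := (Nat.mul_dvd_mul_iff_left hg).1 h3
      exact hcop.dvd_of_dvd_mul_left h4
    have hc0 : c a = 0 := by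
      rw [← hk, map_natCast, ZMod.natCast_eq_zero_iff]
      exact hn
    rw [hc0]
    rfl

end Fermat.Agent.S16.LB
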