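import Mathlib
import Fermat.Agent.S16.LB.Psi
import Fermat.Agent.S22.HeckePerm

/-!
# S16 lower bound, piece (2): `ψ` is an Eisenstein eigen-character (pure matrix algebra).

For a decomposition `α_x γ = γ'_x α_{σ x}` of the Hecke coset representatives, comparing the
`(0,0)` entries modulo `p` gives `a_x ψ(γ) = ψ(γ'_x) a_{σ x}` in `ZMod p`, where `a_x` is the
upper-left entry of `α_x` (a unit modulo `p`).  Taking the product over `x` and cancelling
`∏ a_x` gives `∏ ψ(γ'_x) = ψ(γ) ^ (number of representatives)`.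
-/

set_option autoImplicit false

open scoped MatrixGroups
open CongruenceSubgroup Matrix.SpecialLinearGroup ModularForm
open Fermat.Agent.S22.HeckePerm

namespace Fermat.Agent.S16.LB

namespace HeckeMul

/-- Entries of `mapGL ℝ g`. -/
theorem mapGL_real_entry (g : SL(2, ℤ)) (i j : Fin 2) :
    ((mapGL ℝ g : GL (Fin 2) ℝ) : Matrix (Fin 2) (Fin 2) ℝ) i j = ((g i j : ℤ) : ℝ) := by
  simp [mapGL_coe_matrix]

/-- The `(0,0)`-entry of a relation `A * γ = γ' * B` with `B` upper triangular. -/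
theorem entry00_of_rel (A B : GL (Fin 2) ℝ) (g g' : SL(2, ℤ))
    (h : A * mapGL ℝ g = mapGL ℝ g' * B)
    (hB : (B : Matrix (Fin 2) (Fin 2) ℝ) 1 0 = 0) :
    (A : Matrix (Fin 2) (Fin 2) ℝ) 0 0 * ((g 0 0 : ℤ) : ℝ)
        + (A : Matrix (Fin 2) (Fin 2) ℝ) 0 1 * ((g 1 0 : ℤ) : ℝ)
      = ((g' 0 0 : ℤ) : ℝ) * (B : Matrix (Fin 2) (Fin 2) ℝ) 0 0 := by
  have h1 := congrArg (fun M : GL (Fin 2) ℝ => (M : Matrix (Fin 2) (Fin 2) ℝ) 0 0) h
  simp only [Units.val_mul, Matrix.mul_apply, Fin.sum_univ_two, mapGL_real_entry, hB, mul_zero,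
    add_zero] at h1
  exact h1

/-- The upper-left entries of the `T_q` coset representatives. -/
def aT (q : ℕ) (x : OnePoint (ZMod q)) : ℤ := x.elim (q : ℤ) (fun _ => 1)

/-- The upper-right entries of the `T_q` coset representatives. -/
def bT (q : ℕ) (x : OnePoint (ZMod q)) : ℤ := x.elim 0 (fun j => (j.val : ℤ))

theorem tRep_val_00 {q : ℕ} (hq : q ≠ 0) (x : OnePoint (ZMod q)) :
    ((tRep q x : GL (Fin 2) ℝ) : Matrix (Fin 2) (Fin 2) ℝ) 0 0 = (aT q x : ℝ) := by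
  induction x using OnePoint.rec with
  | infty => rw [tRep_infty, val_heckeDiagMatrix hq]; simp [aT]
  | coe j => rw [tRep_coe, val_heckeMatrix hq]; simp [aT]

theorem tRep_val_01 {q : ℕ} (hq : q ≠ 0) (x : OnePoint (ZMod q)) :
    ((tRep q x : GL (Fin 2) ℝ) : Matrix (Fin 2) (Fin 2) ℝ) 0 1 = (bT q x : ℝ) := by
  induction x using OnePoint.rec with
  | infty => rw [tRep_infty, val_heckeDiagMatrix hq]; simp [bT]
  | coe j => rw [tRep_coe, val_heckeMatrix hq]; simp [bT]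

theorem tRep_val_10 {q : ℕ} (hq : q ≠ 0) (x : OnePoint (ZMod q)) :
    ((tRep q x : GL (Fin 2) ℝ) : Matrix (Fin 2) (Fin 2) ℝ) 1 0 = 0 := by
  induction x using OnePoint.rec with
  | infty => rw [tRep_infty, val_heckeDiagMatrix hq]; simp
  | coe j => rw [tRep_coe, val_heckeMatrix hq]; simp

theorem card_onePoint_zmod (q : ℕ) [NeZero q] : Fintype.card (OnePoint (ZMod q)) = q + 1 := by
  have h : Fintype.card (Option (ZMod q)) = q + 1 := by
    rw [Fintype.card_option, ZMod.card]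
  exact h

theorem aT_cast_ne_zero (p : ℕ) [Fact p.Prime] {q : ℕ} (hq : q.Prime) (hqp : q ≠ p)
    (x : OnePoint (ZMod q)) : ((aT q x : ℤ) : ZMod p) ≠ 0 := by
  have hp : p.Prime := Fact.out
  induction x using OnePoint.rec with
  | infty =>
    simp only [aT, OnePoint.elim_infty, Int.cast_natCast]
    intro h
    rw [ZMod.natCast_eq_zero_iff] at h
    exact hqp ((Nat.prime_dvd_prime_iff_eq hp hq).mp h).symm
  | coe j =>
    simp [aT]

end HeckeMul

variable (p : ℕ) [Fact p.Prime]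

/-- `T_q`, `q ≠ p`: for ANY decomposition `α_x γ = γ'_x α_{σ x}` the product of the `ψ (γ'_x)`
is `ψ γ ^ (q + 1)`. -/
theorem prod_psiUnit_T {q : ℕ} [NeZero q] (hq : q.Prime) (hqp : q ≠ p) (γ : Gamma0 p)
    (σ : Equiv.Perm (OnePoint (ZMod q))) (γ' : OnePoint (ZMod q) → Gamma0 p)
    (hrel : ∀ x, tRep q x * mapGL ℝ (γ : SL(2, ℤ))
      = mapGL ℝ ((γ' x : Gamma0 p) : SL(2, ℤ)) * tRep q (σ x)) :
    ∏ x, psiUnit p (γ' x) = psiUnit p γ ^ (q + 1) := by
  have hq0 : q ≠ 0 := hq.ne_zero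
  -- the pointwise congruence `a_x ψ(γ) = ψ(γ'_x) a_{σ x}`
  have key : ∀ x, ((HeckeMul.aT q x : ℤ) : ZMod p) * ((psiUnit p γ : (ZMod p)ˣ) : ZMod p)
      = ((psiUnit p (γ' x) : (ZMod p)ˣ) : ZMod p) * ((HeckeMul.aT q (σ x) : ℤ) : ZMod p) := by
    intro x
    have h := HeckeMul.entry00_of_rel _ _ _ _ (hrel x) (HeckeMul.tRep_val_10 hq0 (σ x))
    rw [HeckeMul.tRep_val_00 hq0, HeckeMul.tRep_val_01 hq0, HeckeMul.tRep_val_00 hq0] at h
    have hZ : HeckeMul.aT q x * ((γ : SL(2, ℤ)) 0 0) + HeckeMul.bT q x * ((γ : SL(2, ℤ)) 1 0)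
        = (((γ' x : Gamma0 p) : SL(2, ℤ)) 0 0) * HeckeMul.aT q (σ x) := by
      exact_mod_cast h
    have hc : (((γ : SL(2, ℤ)) 1 0 : ℤ) : ZMod p) = 0 := Gamma0_mem.mp γ.2
    have h2 := congrArg (Int.cast : ℤ → ZMod p) hZ
    push_cast at h2
    rw [hc, mul_zero, add_zero] at h2
    rw [psiUnit_val, psiUnit_val]
    exact h2
  have hprod : ∏ x, (((HeckeMul.aT q x : ℤ) : ZMod p) * ((psiUnit p γ : (ZMod p)ˣ) : ZMod p))
      = ∏ x, (((psiUnit p (γ' x) : (ZMod p)ˣ) : ZMod p)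
          * ((HeckeMul.aT q (σ x) : ℤ) : ZMod p)) :=
    Finset.prod_congr rfl (fun x _ => key x)
  rw [Finset.prod_mul_distrib, Finset.prod_mul_distrib, Finset.prod_const, Finset.card_univ,
    HeckeMul.card_onePoint_zmod,
    Equiv.prod_comp σ (fun x => ((HeckeMul.aT q x : ℤ) : ZMod p))] at hprod
  have hne : ∏ x, ((HeckeMul.aT q x : ℤ) : ZMod p) ≠ 0 :=
    Finset.prod_ne_zero_iff.mpr (fun x _ => HeckeMul.aT_cast_ne_zero p hq hqp x)
  apply Units.ext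
  rw [Units.coe_prod, Units.val_pow_eq_pow_val]
  exact (mul_left_cancel₀ hne (hprod.trans (mul_comm _ _))).symm

/-- `U_p`: for ANY decomposition `α_x γ = γ'_x α_{σ x}` the product of the `ψ (γ'_x)` is `ψ γ`. -/
theorem prod_psiUnit_U (γ : Gamma0 p)
    (σ : Equiv.Perm (ZMod p)) (γ' : ZMod p → Gamma0 p)
    (hrel : ∀ x : ZMod p, heckeMatrix p x.val * mapGL ℝ (γ : SL(2, ℤ))
      = mapGL ℝ ((γ' x : Gamma0 p) : SL(2, ℤ)) * heckeMatrix p (σ x).val) :
    ∏ x, psiUnit p (γ' x) = psiUnit p γ := by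
  have hp : p.Prime := Fact.out
  have hp0 : p ≠ 0 := hp.ne_zero
  have key : ∀ x, psiUnit p (γ' x) = psiUnit p γ := by
    intro x
    have h := HeckeMul.entry00_of_rel _ _ _ _ (hrel x)
      (by rw [val_heckeMatrix hp0]; simp)
    rw [val_heckeMatrix hp0, val_heckeMatrix hp0] at h
    have hR : (((γ : SL(2, ℤ)) 0 0 : ℤ) : ℝ) + ((x.val : ℤ) : ℝ) * (((γ : SL(2, ℤ)) 1 0 : ℤ) : ℝ)
        = ((((γ' x : Gamma0 p) : SL(2, ℤ)) 0 0 : ℤ) : ℝ) := by
      simpa using h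
    have hZ : ((γ : SL(2, ℤ)) 0 0) + (x.val : ℤ) * ((γ : SL(2, ℤ)) 1 0)
        = (((γ' x : Gamma0 p) : SL(2, ℤ)) 0 0) := by
      exact_mod_cast hR
    have hc : (((γ : SL(2, ℤ)) 1 0 : ℤ) : ZMod p) = 0 := Gamma0_mem.mp γ.2
    apply Units.ext
    rw [psiUnit_val, psiUnit_val, ← hZ]
    push_cast
    rw [hc, mul_zero, add_zero]
  rw [Finset.prod_congr rfl (fun x _ => key x), Finset.prod_const, Finset.card_univ, ZMod.card]
  apply Units.ext
  rw [Units.val_pow_eq_pow_val, ZMod.pow_card]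

end Fermat.Agent.S16.LB
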