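import Mathlib
import Fermat.Prelude.Def_ModularCurve_PeriodHomPair
import Fermat.Prelude.Def_CuspForm_HeckeAlgebra
import Fermat.Agent.S21.PeriodMap
import Fermat.Agent.S22.HeckePerm

/-!
# S16 lower bound, piece (3b): from `periodMap` to `periodHomPair` for Hecke operators.

`periodHomPair N (f, g) = (1 + ι) (periodMap f) + (1 - ι) (periodMap g)` where `ι` is
precomposition with conjugation by `J = diag(1, -1)`.  Conjugation by `J` permutes the Hecke
coset representatives up to left multiplication by `T⁻¹ ∈ Γ₀(N)`: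
`J α_j J = T⁻¹ α_{-j}` (`j ≠ 0`), `J α_0 J = α_0`, `J α_∞ J = α_∞`.
Hence a decomposition `α_x γ = γ'_x α_{σ x}` conjugates to a decomposition for `J γ J`, and the
`T⁻¹` corrections die because `periodMap` kills parabolic elements.

The results are stated *conditionally* on the `periodMap` formula (for all decompositions), so
that this file does not depend on `HeckePeriod.lean`.
-/

set_option autoImplicit false

open scoped MatrixGroups
open CongruenceSubgroup Matrix.SpecialLinearGroup ModularForm ModularCurve ModularCurve.Period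
open Fermat.Agent.S22.HeckePerm

namespace Fermat.Agent.S16.LB.HeckePair

/-- Conjugation by `diag(1, -1)` on real `2 × 2` matrices. -/
def jR (A : Matrix (Fin 2) (Fin 2) ℝ) : Matrix (Fin 2) (Fin 2) ℝ :=
  !![A 0 0, -A 0 1; -A 1 0, A 1 1]

theorem jR_mul (A B : Matrix (Fin 2) (Fin 2) ℝ) : jR (A * B) = jR A * jR B := by
  ext i j
  fin_cases i <;> fin_cases j <;>
    simp [jR, Matrix.mul_apply, Fin.sum_univ_two] <;> ring

theorem jR_mapGL (g : SL(2, ℤ)) :
    jR (mapGL ℝ g : GL (Fin 2) ℝ).val = (mapGL ℝ (jConjSL g) : GL (Fin 2) ℝ).val := by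
  ext i j
  fin_cases i <;> fin_cases j <;> simp [jR, jConjMat]

variable {N : ℕ}

/-- `T⁻¹` as an element of `Γ₀(N)`. -/
def tInv (N : ℕ) : Gamma0 N :=
  ⟨ModularGroup.T⁻¹, by
    rw [Gamma0_mem]
    simp⟩

theorem tInv_trace (N : ℕ) :
    (((tInv N : Gamma0 N) : SL(2, ℤ)) : Matrix (Fin 2) (Fin 2) ℤ).trace ^ 2 = 4 := by
  show ((ModularGroup.T⁻¹ : SL(2, ℤ)) : Matrix (Fin 2) (Fin 2) ℤ).trace ^ 2 = 4
  rw [ModularGroup.coe_T_inv, Matrix.trace_fin_two_of]
  norm_num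

theorem one_trace (N : ℕ) :
    ((((1 : Gamma0 N) : Gamma0 N) : SL(2, ℤ)) : Matrix (Fin 2) (Fin 2) ℤ).trace ^ 2 = 4 := by
  show ((1 : SL(2, ℤ)) : Matrix (Fin 2) (Fin 2) ℤ).trace ^ 2 = 4
  rw [Matrix.SpecialLinearGroup.coe_one, Matrix.trace_fin_two]
  norm_num

/-- The correction term: `1` for the class `0`, `T⁻¹` otherwise. -/
noncomputable def tCorr (N q : ℕ) (x : ZMod q) : Gamma0 N :=
  open scoped Classical in if x = 0 then 1 else tInv N

theorem tCorr_trace (N q : ℕ) (x : ZMod q) :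
    (((tCorr N q x : Gamma0 N) : SL(2, ℤ)) : Matrix (Fin 2) (Fin 2) ℤ).trace ^ 2 = 4 := by
  unfold tCorr
  split_ifs
  · exact one_trace N
  · exact tInv_trace N

theorem val_mapGL_tInv (N : ℕ) :
    (mapGL ℝ ((tInv N : Gamma0 N) : SL(2, ℤ)) : GL (Fin 2) ℝ).val = !![(1 : ℝ), -1; 0, 1] := by
  show (mapGL ℝ (ModularGroup.T⁻¹ : SL(2, ℤ)) : GL (Fin 2) ℝ).val = _
  simp only [Matrix.SpecialLinearGroup.mapGL_coe_matrix, Matrix.SpecialLinearGroup.map_apply_coe,
    ModularGroup.coe_T_inv]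
  ext i j
  fin_cases i <;> fin_cases j <;> simp

theorem val_mapGL_one (N : ℕ) :
    (mapGL ℝ (((1 : Gamma0 N) : Gamma0 N) : SL(2, ℤ)) : GL (Fin 2) ℝ).val = 1 := by
  rw [OneMemClass.coe_one, map_one, Units.val_one]

/-- `J α_j J = T^{-ε(j)} α_{-j}`. -/
theorem jR_heckeMatrix (N : ℕ) {q : ℕ} [NeZero q] (x : ZMod q) :
    jR (heckeMatrix q x.val).val
      = (mapGL ℝ ((tCorr N q x : Gamma0 N) : SL(2, ℤ)) : GL (Fin 2) ℝ).val
        * (heckeMatrix q (-x).val).val := by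
  have hq : q ≠ 0 := NeZero.ne q
  rw [val_heckeMatrix hq, val_heckeMatrix hq]
  unfold tCorr
  by_cases hx : x = 0
  · subst hx
    rw [if_pos rfl, val_mapGL_one, one_mul]
    ext i j
    fin_cases i <;> fin_cases j <;> simp [jR]
  · rw [if_neg hx, val_mapGL_tInv]
    have hval : ((-x).val : ℝ) = (q : ℝ) - (x.val : ℝ) := by
      rw [ZMod.neg_val, if_neg hx, Nat.cast_sub (ZMod.val_lt x).le]
    rw [hval]
    ext i j
    fin_cases i <;> fin_cases j <;>
      simp [jR, Matrix.mul_apply, Fin.sum_univ_two] <;> ring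

section Generic

variable [NeZero N] {ι : Type*} [Fintype ι]

/-- Generic conjugation step: the `periodMap` formula for all decompositions implies the same
formula along `J γ J`, with the `J`-conjugates of the `γ'_x`. -/
theorem periodMap_jConj (α : ι → GL (Fin 2) ℝ) (ν : Equiv.Perm ι) (t : ι → Gamma0 N)
    (ht : ∀ x, (((t x : Gamma0 N) : SL(2, ℤ)) : Matrix (Fin 2) (Fin 2) ℤ).trace ^ 2 = 4)
    (hJ : ∀ x, jR (α x).val
      = (mapGL ℝ ((t x : Gamma0 N) : SL(2, ℤ)) : GL (Fin 2) ℝ).val * (α (ν x)).val)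
    (f Tf : CuspForm (Gamma0 N) 2)
    (hf : ∀ (γ : Gamma0 N) (σ : Equiv.Perm ι) (γ' : ι → Gamma0 N),
      (∀ x, α x * mapGL ℝ (γ : SL(2, ℤ)) = mapGL ℝ ((γ' x : Gamma0 N) : SL(2, ℤ)) * α (σ x)) →
      periodMap N Tf (Additive.ofMul γ) = ∑ x, periodMap N f (Additive.ofMul (γ' x)))
    (γ : Gamma0 N) (σ : Equiv.Perm ι) (γ' : ι → Gamma0 N)
    (hrel : ∀ x, α x * mapGL ℝ (γ : SL(2, ℤ))
      = mapGL ℝ ((γ' x : Gamma0 N) : SL(2, ℤ)) * α (σ x)) :
    periodMap N Tf (Additive.ofMul (jConjGamma0 N γ))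
      = ∑ x, periodMap N f (Additive.ofMul (jConjGamma0 N (γ' x))) := by
  have hpar : ∀ x, periodMap N f (Additive.ofMul (t x)) = 0 := fun x =>
    (mem_parabolicHoms_iff.mp (Fermat.Agent.S21.periodMap_mem_parabolicHoms N f)) (t x) (ht x)
  -- the conjugated decomposition
  have key : ∀ y, α y * mapGL ℝ ((jConjGamma0 N γ : Gamma0 N) : SL(2, ℤ))
      = mapGL ℝ ((((t (ν.symm y))⁻¹ * jConjGamma0 N (γ' (ν.symm y)) * t (σ (ν.symm y))
          : Gamma0 N) : Gamma0 N) : SL(2, ℤ))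
        * α ((ν.symm.trans (σ.trans ν)) y) := by
    intro y
    obtain ⟨x, rfl⟩ := ν.surjective y
    rw [Equiv.symm_apply_apply]
    have h1 := congrArg (fun A : GL (Fin 2) ℝ => jR A.val) (hrel x)
    simp only [Units.val_mul, jR_mul, jR_mapGL, hJ] at h1
    apply Units.ext
    have e1 : ((ν.symm.trans (σ.trans ν)) (ν x)) = ν (σ x) := by simp
    rw [e1]
    simp only [Units.val_mul, jConjGamma0_coe, Subgroup.coe_mul, Subgroup.coe_inv, map_mul,
      map_inv]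
    have hinv : ((mapGL ℝ ((t x : Gamma0 N) : SL(2, ℤ)) : GL (Fin 2) ℝ)⁻¹).val
        * (mapGL ℝ ((t x : Gamma0 N) : SL(2, ℤ)) : GL (Fin 2) ℝ).val = 1 := by
      rw [← Units.val_mul, inv_mul_cancel, Units.val_one]
    calc (α (ν x)).val * (mapGL ℝ (jConjSL ((γ : Gamma0 N) : SL(2, ℤ))) : GL (Fin 2) ℝ).val
        = ((mapGL ℝ ((t x : Gamma0 N) : SL(2, ℤ)) : GL (Fin 2) ℝ)⁻¹).val
            * ((mapGL ℝ ((t x : Gamma0 N) : SL(2, ℤ)) : GL (Fin 2) ℝ).val * (α (ν x)).val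
              * (mapGL ℝ (jConjSL ((γ : Gamma0 N) : SL(2, ℤ))) : GL (Fin 2) ℝ).val) := by
          rw [← mul_assoc, ← mul_assoc, hinv, one_mul]
      _ = _ := by
          rw [h1]
          simp only [mul_assoc]
  rw [hf (jConjGamma0 N γ) (ν.symm.trans (σ.trans ν)) _ key]
  have hterm : ∀ y, periodMap N f (Additive.ofMul
      ((t (ν.symm y))⁻¹ * jConjGamma0 N (γ' (ν.symm y)) * t (σ (ν.symm y))))
      = periodMap N f (Additive.ofMul (jConjGamma0 N (γ' (ν.symm y)))) := by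
    intro y
    rw [ofMul_mul, ofMul_mul, ofMul_inv, map_add, map_add, map_neg, hpar, hpar]
    simp
  rw [Finset.sum_congr rfl fun y _ => hterm y]
  exact Equiv.sum_comp ν.symm fun x => periodMap N f (Additive.ofMul (jConjGamma0 N (γ' x)))

/-- Generic pair statement. -/
theorem periodHomPair_of_periodMap (α : ι → GL (Fin 2) ℝ) (ν : Equiv.Perm ι) (t : ι → Gamma0 N)
    (ht : ∀ x, (((t x : Gamma0 N) : SL(2, ℤ)) : Matrix (Fin 2) (Fin 2) ℤ).trace ^ 2 = 4)
    (hJ : ∀ x, jR (α x).val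
      = (mapGL ℝ ((t x : Gamma0 N) : SL(2, ℤ)) : GL (Fin 2) ℝ).val * (α (ν x)).val)
    (f g Tf Tg : CuspForm (Gamma0 N) 2)
    (hf : ∀ (γ : Gamma0 N) (σ : Equiv.Perm ι) (γ' : ι → Gamma0 N),
      (∀ x, α x * mapGL ℝ (γ : SL(2, ℤ)) = mapGL ℝ ((γ' x : Gamma0 N) : SL(2, ℤ)) * α (σ x)) →
      periodMap N Tf (Additive.ofMul γ) = ∑ x, periodMap N f (Additive.ofMul (γ' x)))
    (hg : ∀ (γ : Gamma0 N) (σ : Equiv.Perm ι) (γ' : ι → Gamma0 N),
      (∀ x, α x * mapGL ℝ (γ : SL(2, ℤ)) = mapGL ℝ ((γ' x : Gamma0 N) : SL(2, ℤ)) * α (σ x)) →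
      periodMap N Tg (Additive.ofMul γ) = ∑ x, periodMap N g (Additive.ofMul (γ' x)))
    (γ : Gamma0 N) (σ : Equiv.Perm ι) (γ' : ι → Gamma0 N)
    (hrel : ∀ x, α x * mapGL ℝ (γ : SL(2, ℤ))
      = mapGL ℝ ((γ' x : Gamma0 N) : SL(2, ℤ)) * α (σ x)) :
    periodHomPair N (Tf, Tg) (Additive.ofMul γ)
      = ∑ x, periodHomPair N (f, g) (Additive.ofMul (γ' x)) := by
  rw [Fermat.Agent.S21.periodHomPair_apply]
  simp only [Fermat.Agent.S21.periodHomPair_apply, AddMonoidHom.add_apply,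
    AddMonoidHom.sub_apply, charInvolution_apply, toMul_ofMul]
  rw [hf γ σ γ' hrel, hg γ σ γ' hrel,
    periodMap_jConj α ν t ht hJ f Tf hf γ σ γ' hrel,
    periodMap_jConj α ν t ht hJ g Tg hg γ σ γ' hrel]
  simp only [Finset.sum_add_distrib, Finset.sum_sub_distrib]

end Generic

/-! ### The two concrete cases -/

/-- Negation on `OnePoint (ZMod q)` (fixing `∞`). -/
def negOP (q : ℕ) : Equiv.Perm (OnePoint (ZMod q)) where
  toFun x := x.elim OnePoint.infty (fun j => ((-j : ZMod q) : OnePoint (ZMod q)))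
  invFun x := x.elim OnePoint.infty (fun j => ((-j : ZMod q) : OnePoint (ZMod q)))
  left_inv x := by induction x using OnePoint.rec <;> simp
  right_inv x := by induction x using OnePoint.rec <;> simp

theorem negOP_infty (q : ℕ) : negOP q OnePoint.infty = OnePoint.infty := rfl

theorem negOP_coe (q : ℕ) (j : ZMod q) :
    negOP q (j : OnePoint (ZMod q)) = ((-j : ZMod q) : OnePoint (ZMod q)) := rfl

/-- The correction term on `OnePoint (ZMod q)`. -/
noncomputable def tCorrOP (N q : ℕ) (x : OnePoint (ZMod q)) : Gamma0 N :=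
  x.elim 1 (tCorr N q)

theorem tCorrOP_trace (N q : ℕ) (x : OnePoint (ZMod q)) :
    (((tCorrOP N q x : Gamma0 N) : SL(2, ℤ)) : Matrix (Fin 2) (Fin 2) ℤ).trace ^ 2 = 4 := by
  induction x using OnePoint.rec with
  | infty => exact one_trace N
  | coe j => exact tCorr_trace N q j

theorem jR_tRep (N : ℕ) {q : ℕ} [NeZero q] (x : OnePoint (ZMod q)) :
    jR (tRep q x).val
      = (mapGL ℝ ((tCorrOP N q x : Gamma0 N) : SL(2, ℤ)) : GL (Fin 2) ℝ).val
        * (tRep q (negOP q x)).val := by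
  induction x using OnePoint.rec with
  | infty =>
    have hq : q ≠ 0 := NeZero.ne q
    rw [negOP_infty, tRep_infty, val_heckeDiagMatrix hq]
    show _ = (mapGL ℝ (((1 : Gamma0 N) : Gamma0 N) : SL(2, ℤ)) : GL (Fin 2) ℝ).val * _
    rw [val_mapGL_one, one_mul]
    ext i j
    fin_cases i <;> fin_cases j <;> simp [jR]
  | coe j =>
    rw [negOP_coe, tRep_coe, tRep_coe]
    exact jR_heckeMatrix N j

variable [NeZero N]

/-- `periodHomPair` version of the Hecke relation for `T_q`, given the `periodMap` version. -/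
theorem periodHomPair_heckeT_of {q : ℕ} [NeZero q] (hq : q.Prime) (hqN : ¬ q ∣ N)
    (hper : ∀ (f : CuspForm (Gamma0 N) 2) (γ : Gamma0 N)
      (σ : Equiv.Perm (OnePoint (ZMod q))) (γ' : OnePoint (ZMod q) → Gamma0 N),
      (∀ x, tRep q x * mapGL ℝ (γ : SL(2, ℤ))
        = mapGL ℝ ((γ' x : Gamma0 N) : SL(2, ℤ)) * tRep q (σ x)) →
      periodMap N (CuspForm.heckeTLin 2 hq hqN f) (Additive.ofMul γ)
        = ∑ x, periodMap N f (Additive.ofMul (γ' x)))
    (f g : CuspForm (Gamma0 N) 2) (γ : Gamma0 N)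
    (σ : Equiv.Perm (OnePoint (ZMod q))) (γ' : OnePoint (ZMod q) → Gamma0 N)
    (hrel : ∀ x, tRep q x * mapGL ℝ (γ : SL(2, ℤ))
      = mapGL ℝ ((γ' x : Gamma0 N) : SL(2, ℤ)) * tRep q (σ x)) :
    periodHomPair N (CuspForm.heckeTLin 2 hq hqN f, CuspForm.heckeTLin 2 hq hqN g)
        (Additive.ofMul γ)
      = ∑ x, periodHomPair N (f, g) (Additive.ofMul (γ' x)) :=
  periodHomPair_of_periodMap (tRep q) (negOP q) (tCorrOP N q) (tCorrOP_trace N q)
    (jR_tRep N) f g _ _ (hper f) (hper g) γ σ γ' hrel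

/-- `periodHomPair` version of the Hecke relation for `U_q`, given the `periodMap` version. -/
theorem periodHomPair_heckeU_of {q : ℕ} [NeZero q] (hqN : q ∣ N)
    (hper : ∀ (f : CuspForm (Gamma0 N) 2) (γ : Gamma0 N)
      (σ : Equiv.Perm (ZMod q)) (γ' : ZMod q → Gamma0 N),
      (∀ x : ZMod q, heckeMatrix q x.val * mapGL ℝ (γ : SL(2, ℤ))
        = mapGL ℝ ((γ' x : Gamma0 N) : SL(2, ℤ)) * heckeMatrix q (σ x).val) →
      periodMap N (CuspForm.heckeULin 2 hqN f) (Additive.ofMul γ)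
        = ∑ x, periodMap N f (Additive.ofMul (γ' x)))
    (f g : CuspForm (Gamma0 N) 2) (γ : Gamma0 N)
    (σ : Equiv.Perm (ZMod q)) (γ' : ZMod q → Gamma0 N)
    (hrel : ∀ x : ZMod q, heckeMatrix q x.val * mapGL ℝ (γ : SL(2, ℤ))
      = mapGL ℝ ((γ' x : Gamma0 N) : SL(2, ℤ)) * heckeMatrix q (σ x).val) :
    periodHomPair N (CuspForm.heckeULin 2 hqN f, CuspForm.heckeULin 2 hqN g)
        (Additive.ofMul γ)
      = ∑ x, periodHomPair N (f, g) (Additive.ofMul (γ' x)) :=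
  periodHomPair_of_periodMap (fun x : ZMod q => heckeMatrix q x.val) (Equiv.neg (ZMod q))
    (tCorr N q) (tCorr_trace N q) (fun x => jR_heckeMatrix N x) f g _ _ (hper f) (hper g)
    γ σ γ' hrel

end Fermat.Agent.S16.LB.HeckePair
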