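import Mathlib
import Fermat.Prelude.Def_ModularCurve_PeriodHomPair
import Fermat.Prelude.Def_CuspForm_HeckeAlgebra
import Fermat.Agent.S21.PeriodMap
import Fermat.Agent.S22.HeckePerm

/-!
# S16 lower bound, piece (3a): Hecke operators and weight-2 periods (`periodMap` version).

If `g = ∑ x, f ∣[2] α x` for finitely many `α x ∈ GL₂(ℝ)⁺` and `α x * γ = γ' x * α (σ x)` with
`σ` a permutation and `γ' x ∈ Γ₀(N)`, then the period of `g` along `γ` is the sum of the periods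
of `f` along the `γ' x`.
-/

set_option autoImplicit false

open scoped MatrixGroups
open CongruenceSubgroup Matrix.SpecialLinearGroup ModularForm ModularCurve ModularCurve.Period
open UpperHalfPlane hiding I
open Fermat.Agent.S22.HeckePerm

namespace Fermat.Agent.S16.LB

/-- Chain rule for precomposition with a Möbius transformation of positive determinant
(weight-two slash action). -/
theorem hasDerivAt_comp_glPos_smul {F f : ℍ → ℂ}
    (hF : ∀ τ : ℍ, HasDerivAt (F ∘ ofComplex) (f τ) ↑τ) (α : GL (Fin 2) ℝ)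
    (hα : 0 < α.val.det) (τ : ℍ) :
    HasDerivAt ((fun w : ℍ => F (α • w)) ∘ ofComplex) ((f ∣[(2 : ℤ)] α) τ) ↑τ := by
  have h1 : HasDerivAt (fun z : ℂ => ((α • ofComplex z : ℍ) : ℂ))
      ((α.val.det : ℂ) / denom α τ ^ 2) τ :=
    (hasStrictDerivAt_smul hα τ).hasDerivAt
  have h2 : HasDerivAt (F ∘ ofComplex) (f (α • τ)) (((α • ofComplex (τ : ℂ) : ℍ) : ℂ)) := by
    rw [ofComplex_apply]
    exact hF (α • τ)
  have h3 := h2.comp (τ : ℂ) h1
  have heq : ((fun w : ℍ => F (α • w)) ∘ ofComplex)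
      = (F ∘ ofComplex) ∘ (fun z : ℂ => ((α • ofComplex z : ℍ) : ℂ)) := by
    funext z
    simp only [Function.comp_apply, ofComplex_apply]
  rw [heq]
  refine h3.congr_deriv ?_
  have hdet : α.det.val = α.val.det := Matrix.GeneralLinearGroup.val_det_apply α
  have hσ : UpperHalfPlane.σ α = .refl ℝ ℂ := by
    rw [UpperHalfPlane.σ, if_pos (by rw [hdet]; exact hα)]
  rw [ModularForm.slash_apply, hσ, hdet, abs_of_pos hα]
  simp only [ContinuousAlgEquiv.refl_apply]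
  rw [show (2 : ℤ) - 1 = 1 by norm_num, zpow_one, zpow_neg, div_eq_mul_inv, mul_assoc]
  norm_cast

variable {N : ℕ} [NeZero N]

/-- The abstract Hecke relation for weight-two periods. -/
theorem periodMap_of_sum_slash {ι : Type*} [Fintype ι] (α : ι → GL (Fin 2) ℝ)
    (hα : ∀ x, 0 < (α x).val.det) (f g : CuspForm (Gamma0 N) 2)
    (hg : (g : ℍ → ℂ) = ∑ x, (f : ℍ → ℂ) ∣[(2 : ℤ)] α x)
    (γ : Gamma0 N) (σ : Equiv.Perm ι) (γ' : ι → Gamma0 N)
    (hrel : ∀ x, α x * mapGL ℝ (γ : SL(2, ℤ))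
      = mapGL ℝ ((γ' x : Gamma0 N) : SL(2, ℤ)) * α (σ x)) :
    periodMap N g (Additive.ofMul γ) = ∑ x, periodMap N f (Additive.ofMul (γ' x)) := by
  obtain ⟨F, hF⟩ := Fermat.Agent.S21.exists_primitive N f
  obtain ⟨F', hF'⟩ := Fermat.Agent.S21.exists_primitive N g
  -- `G = ∑ x, F ∘ α x` is a primitive of `g`
  have hd : ∀ τ : ℍ, HasDerivAt ((fun w : ℍ => (∑ x, F (α x • w)) - F' w) ∘ ofComplex) 0 ↑τ := by
    intro τ
    have h1 : HasDerivAt (fun z : ℂ => ∑ x, ((fun w : ℍ => F (α x • w)) ∘ ofComplex) z)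
        (∑ x, ((f : ℍ → ℂ) ∣[(2 : ℤ)] α x) τ) ↑τ :=
      HasDerivAt.fun_sum fun x _ => hasDerivAt_comp_glPos_smul hF.1 (α x) (hα x) τ
    have h2 := hF'.1 τ
    rw [hg, Finset.sum_apply] at h2
    have h3 := h1.sub h2
    rw [sub_self] at h3
    exact h3
  obtain ⟨c, hc⟩ := Fermat.Agent.S21.exists_const_of_hasDerivAt_zero hd
  have hF'eq : ∀ w : ℍ, F' w = (∑ x, F (α x • w)) - c := by
    intro w
    rw [← hc w]
    ring
  set z : ℍ := UpperHalfPlane.I with hz
  rw [Fermat.Agent.S21.periodMap_apply N hF' γ z, hF'eq, hF'eq]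
  have hsmul : ∀ x, α x • ((γ : SL(2, ℤ)) • z) = ((γ' x : Gamma0 N) : SL(2, ℤ)) • (α (σ x) • z) := by
    intro x
    have e1 : α x • ((γ : SL(2, ℤ)) • z) = (α x * mapGL ℝ (γ : SL(2, ℤ))) • z := by
      rw [mul_smul]
      rfl
    have e2 : ((γ' x : Gamma0 N) : SL(2, ℤ)) • (α (σ x) • z)
        = (mapGL ℝ ((γ' x : Gamma0 N) : SL(2, ℤ)) * α (σ x)) • z := by
      rw [mul_smul]
      rfl
    rw [e1, e2, hrel x]
  have hre : ∑ x, F (α x • z) = ∑ x, F (α (σ x) • z) :=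
    (Equiv.sum_comp σ fun x => F (α x • z)).symm
  have hfin : (∑ x, F (α x • ((γ : SL(2, ℤ)) • z)) - c) - ((∑ x, F (α x • z)) - c)
      = ∑ x, (F (((γ' x : Gamma0 N) : SL(2, ℤ)) • (α (σ x) • z)) - F (α (σ x) • z)) := by
    rw [Finset.sum_sub_distrib, ← hre]
    simp only [hsmul]
    ring
  rw [hfin]
  refine Finset.sum_congr rfl fun x _ => ?_
  rw [Fermat.Agent.S21.periodMap_apply N hF (γ' x) (α (σ x) • z)]

theorem tRep_val_det_pos (q : ℕ) (x : OnePoint (ZMod q)) : 0 < (tRep q x).val.det := by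
  induction x using OnePoint.rec with
  | infty =>
    rw [tRep_infty, ← Matrix.GeneralLinearGroup.val_det_apply]
    exact det_heckeDiagMatrix_pos q
  | coe j =>
    rw [tRep_coe, ← Matrix.GeneralLinearGroup.val_det_apply]
    exact det_heckeMatrix_pos q j.val

/-- Period of `T_q f` along `γ`, for ANY decomposition `α_x γ = γ'_x α_{σ x}`. -/
theorem periodMap_heckeT' {q : ℕ} [NeZero q] (hq : q.Prime) (hqN : ¬ q ∣ N)
    (f : CuspForm (Gamma0 N) 2) (γ : Gamma0 N)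
    (σ : Equiv.Perm (OnePoint (ZMod q))) (γ' : OnePoint (ZMod q) → Gamma0 N)
    (hrel : ∀ x, tRep q x * mapGL ℝ (γ : SL(2, ℤ))
      = mapGL ℝ ((γ' x : Gamma0 N) : SL(2, ℤ)) * tRep q (σ x)) :
    periodMap N (CuspForm.heckeTLin 2 hq hqN f) (Additive.ofMul γ)
      = ∑ x, periodMap N f (Additive.ofMul (γ' x)) := by
  refine periodMap_of_sum_slash (tRep q) (tRep_val_det_pos q) f _ ?_ γ σ γ' hrel
  rw [CuspForm.coe_heckeTLin_apply, heckeT_eq_sum_tRep]

/-- Period of `U_q f` along `γ`, for ANY decomposition `α_x γ = γ'_x α_{σ x}`. -/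
theorem periodMap_heckeU' {q : ℕ} [NeZero q] (hqN : q ∣ N)
    (f : CuspForm (Gamma0 N) 2) (γ : Gamma0 N)
    (σ : Equiv.Perm (ZMod q)) (γ' : ZMod q → Gamma0 N)
    (hrel : ∀ x : ZMod q, heckeMatrix q x.val * mapGL ℝ (γ : SL(2, ℤ))
      = mapGL ℝ ((γ' x : Gamma0 N) : SL(2, ℤ)) * heckeMatrix q (σ x).val) :
    periodMap N (CuspForm.heckeULin 2 hqN f) (Additive.ofMul γ)
      = ∑ x, periodMap N f (Additive.ofMul (γ' x)) := by
  refine periodMap_of_sum_slash (fun x : ZMod q => heckeMatrix q x.val)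
    (fun x => by
      rw [← Matrix.GeneralLinearGroup.val_det_apply]
      exact det_heckeMatrix_pos q x.val) f _ ?_ γ σ γ' hrel
  rw [CuspForm.coe_heckeULin_apply, heckeU_eq_sum_zmod]

end Fermat.Agent.S16.LB
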