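import Mathlib
import Fermat.Prelude.Def_ModularCurve_PeriodHomPair
import Fermat.Prelude.Def_CuspForm_HeckeAlgebra
import Fermat.Agent.S21.PeriodMap
import Fermat.Agent.S22.HeckePerm
import Fermat.Agent.S16.LB.HeckePeriodA
import Fermat.Agent.S16.LB.HeckePair

/-!
# S16 lower bound, piece (3): Hecke operators and weight-2 periods.
-/

set_option autoImplicit false

open scoped MatrixGroups
open CongruenceSubgroup Matrix.SpecialLinearGroup ModularForm ModularCurve ModularCurve.Period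
open Fermat.Agent.S22.HeckePerm

namespace Fermat.Agent.S16.LB

variable {N : ℕ} [NeZero N]

/-- Period of `T_q f` along `γ`, for ANY decomposition `α_x γ = γ'_x α_{σ x}`. -/
theorem periodMap_heckeT {q : ℕ} [NeZero q] (hq : q.Prime) (hqN : ¬ q ∣ N)
    (f : CuspForm (Gamma0 N) 2) (γ : Gamma0 N)
    (σ : Equiv.Perm (OnePoint (ZMod q))) (γ' : OnePoint (ZMod q) → Gamma0 N)
    (hrel : ∀ x, tRep q x * mapGL ℝ (γ : SL(2, ℤ))
      = mapGL ℝ ((γ' x : Gamma0 N) : SL(2, ℤ)) * tRep q (σ x)) :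
    periodMap N (CuspForm.heckeTLin 2 hq hqN f) (Additive.ofMul γ)
      = ∑ x, periodMap N f (Additive.ofMul (γ' x)) := periodMap_heckeT' hq hqN f γ σ γ' hrel

/-- Period of `U_q f` along `γ`, for ANY decomposition `α_x γ = γ'_x α_{σ x}`. -/
theorem periodMap_heckeU {q : ℕ} [NeZero q] (hqN : q ∣ N)
    (f : CuspForm (Gamma0 N) 2) (γ : Gamma0 N)
    (σ : Equiv.Perm (ZMod q)) (γ' : ZMod q → Gamma0 N)
    (hrel : ∀ x : ZMod q, heckeMatrix q x.val * mapGL ℝ (γ : SL(2, ℤ))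
      = mapGL ℝ ((γ' x : Gamma0 N) : SL(2, ℤ)) * heckeMatrix q (σ x).val) :
    periodMap N (CuspForm.heckeULin 2 hqN f) (Additive.ofMul γ)
      = ∑ x, periodMap N f (Additive.ofMul (γ' x)) := periodMap_heckeU' hqN f γ σ γ' hrel

/-- The same for `periodHomPair` (uses that conjugation by `diag(1,-1)` permutes the coset
representatives up to left multiplication by `T⁻¹ ∈ Γ₀(N)`). -/
theorem periodHomPair_heckeT {q : ℕ} [NeZero q] (hq : q.Prime) (hqN : ¬ q ∣ N)
    (f g : CuspForm (Gamma0 N) 2) (γ : Gamma0 N)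
    (σ : Equiv.Perm (OnePoint (ZMod q))) (γ' : OnePoint (ZMod q) → Gamma0 N)
    (hrel : ∀ x, tRep q x * mapGL ℝ (γ : SL(2, ℤ))
      = mapGL ℝ ((γ' x : Gamma0 N) : SL(2, ℤ)) * tRep q (σ x)) :
    periodHomPair N (CuspForm.heckeTLin 2 hq hqN f, CuspForm.heckeTLin 2 hq hqN g)
        (Additive.ofMul γ)
      = ∑ x, periodHomPair N (f, g) (Additive.ofMul (γ' x)) := 
  HeckePair.periodHomPair_heckeT_of hq hqN
    (fun f γ σ γ' h => periodMap_heckeT hq hqN f γ σ γ' h) f g γ σ γ' hrel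

theorem periodHomPair_heckeU {q : ℕ} [NeZero q] (hqN : q ∣ N)
    (f g : CuspForm (Gamma0 N) 2) (γ : Gamma0 N)
    (σ : Equiv.Perm (ZMod q)) (γ' : ZMod q → Gamma0 N)
    (hrel : ∀ x : ZMod q, heckeMatrix q x.val * mapGL ℝ (γ : SL(2, ℤ))
      = mapGL ℝ ((γ' x : Gamma0 N) : SL(2, ℤ)) * heckeMatrix q (σ x).val) :
    periodHomPair N (CuspForm.heckeULin 2 hqN f, CuspForm.heckeULin 2 hqN g)
        (Additive.ofMul γ)
      = ∑ x, periodHomPair N (f, g) (Additive.ofMul (γ' x)) := 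
  HeckePair.periodHomPair_heckeU_of hqN
    (fun f γ σ γ' h => periodMap_heckeU hqN f γ σ γ' h) f g γ σ γ' hrel

end Fermat.Agent.S16.LB
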