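import Mathlib
import Fermat.Prelude.Def_ModularCurve_PeriodMap
import Fermat.Agent.S21.GroupBound

/-!
# Cocycle calculus of `S21.GroupBound` with an arbitrary coefficient group `A`

`X = SL(2, ℤ) ⧸ Γ`, functions `X → A`, translation `RA g v x = v (g • x)`, the cocycle
`cocA φ g x = φ (δ(g, x))` attached to `φ : Γ → A`, and the twisted cocycle `twA φ v`.
-/

set_option autoImplicit false
set_option linter.unusedSectionVars false

open scoped MatrixGroups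
open ModularCurve.Period ModularGroup
open Fermat.Agent.S21.GroupBound

namespace Fermat.Agent.S16.LB

noncomputable section

variable (Γ : Subgroup SL(2, ℤ)) {A : Type*} [AddCommGroup A]

/-- Translation operator `(RA g v) x = v (g • x)`. -/
def RA (g : SL(2, ℤ)) (v : SL(2, ℤ) ⧸ Γ → A) : SL(2, ℤ) ⧸ Γ → A := fun x => v (g • x)

@[simp] lemma RA_apply (g : SL(2, ℤ)) (v : SL(2, ℤ) ⧸ Γ → A) (x : SL(2, ℤ) ⧸ Γ) :
    RA Γ g v x = v (g • x) := rfl

lemma RA_mul (g h : SL(2, ℤ)) (v : SL(2, ℤ) ⧸ Γ → A) : RA Γ (g * h) v = RA Γ h (RA Γ g v) := by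
  funext x; simp [mul_smul]

lemma RA_one (v : SL(2, ℤ) ⧸ Γ → A) : RA Γ 1 v = v := by
  funext x; simp

lemma RA_add (g : SL(2, ℤ)) (v w : SL(2, ℤ) ⧸ Γ → A) : RA Γ g (v + w) = RA Γ g v + RA Γ g w := rfl

lemma RA_sub (g : SL(2, ℤ)) (v w : SL(2, ℤ) ⧸ Γ → A) : RA Γ g (v - w) = RA Γ g v - RA Γ g w := rfl

lemma RA_neg (g : SL(2, ℤ)) (v : SL(2, ℤ) ⧸ Γ → A) : RA Γ g (-v) = -RA Γ g v := rfl

lemma RA_zero (g : SL(2, ℤ)) : RA Γ g (0 : SL(2, ℤ) ⧸ Γ → A) = 0 := rfl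

lemma RA_injective (g : SL(2, ℤ)) : Function.Injective (RA Γ (A := A) g) := by
  intro v w h
  have h2 := congrArg (RA Γ g⁻¹) h
  rw [← RA_mul, ← RA_mul, mul_inv_cancel, RA_one, RA_one] at h2
  exact h2

/-- The cocycle attached to a homomorphism `φ : Γ → A`. -/
def cocA (φ : Additive Γ →+ A) (g : SL(2, ℤ)) : SL(2, ℤ) ⧸ Γ → A :=
  fun x => φ (Additive.ofMul (delta Γ g x))

lemma cocA_mul (φ : Additive Γ →+ A) (g h : SL(2, ℤ)) :
    cocA Γ φ (g * h) = RA Γ h (cocA Γ φ g) + cocA Γ φ h := by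
  funext x
  simp [cocA, delta_mul, ofMul_mul]

/-- The twisted cocycle `cocA φ + ∂v`. -/
def twA (φ : Additive Γ →+ A) (v : SL(2, ℤ) ⧸ Γ → A) (g : SL(2, ℤ)) : SL(2, ℤ) ⧸ Γ → A :=
  cocA Γ φ g + (RA Γ g v - v)

lemma twA_mul (φ : Additive Γ →+ A) (v : SL(2, ℤ) ⧸ Γ → A) (g h : SL(2, ℤ)) :
    twA Γ φ v (g * h) = RA Γ h (twA Γ φ v g) + twA Γ φ v h := by
  simp only [twA, cocA_mul, RA_mul, RA_add, RA_sub]
  abel

lemma twA_sub (φ φ' : Additive Γ →+ A) (v v' : SL(2, ℤ) ⧸ Γ → A) (g : SL(2, ℤ)) :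
    twA Γ (φ - φ') (v - v') g = twA Γ φ v g - twA Γ φ' v' g := by
  funext x
  simp only [twA, cocA, Pi.add_apply, Pi.sub_apply, RA_apply, AddMonoidHom.sub_apply]
  abel

lemma twA_zero_right (φ : Additive Γ →+ A) (g : SL(2, ℤ)) : twA Γ φ 0 g = cocA Γ φ g := by
  funext x
  simp [twA]

/-- A "cocycle" vanishing on `S` and `S * T` vanishes identically. -/
lemma cocycleA_eq_zero {c : SL(2, ℤ) → (SL(2, ℤ) ⧸ Γ → A)}
    (hc : ∀ g h, c (g * h) = RA Γ h (c g) + c h)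
    (hS : c S = 0) (hU : c (S * T) = 0) (g : SL(2, ℤ)) : c g = 0 := by
  have h1 : c 1 = 0 := by
    have := hc 1 1
    rw [mul_one, RA_one] at this
    simpa using this
  have hinv : ∀ g, c g = 0 → c g⁻¹ = 0 := by
    intro g hg
    have := hc g⁻¹ g
    rw [inv_mul_cancel, h1, hg, add_zero] at this
    exact RA_injective Γ g (by rw [RA_zero]; exact this.symm)
  let H : Subgroup SL(2, ℤ) :=
    { carrier := {g | c g = 0}
      mul_mem' := by
        intro a b ha hb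
        change c (a * b) = 0
        have ha' : c a = 0 := ha
        have hb' : c b = 0 := hb
        rw [hc, ha', hb', RA_zero, add_zero]
      one_mem' := h1
      inv_mem' := by
        intro a ha
        exact hinv a ha }
  have hSH : S ∈ H := hS
  have hTH : T ∈ H := by
    have h2 : S⁻¹ * (S * T) ∈ H := H.mul_mem (H.inv_mem hSH) hU
    simpa using h2
  have htop : H = ⊤ := by
    apply top_unique
    rw [← SpecialLinearGroup.SL2Z_generators, Subgroup.closure_le]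
    intro a ha
    rcases ha with rfl | rfl
    · exact hSH
    · exact hTH
  have : g ∈ H := by rw [htop]; trivial
  exact this

lemma cocA_x0_of_mem (φ : Additive Γ →+ A) (γ : Γ) :
    cocA Γ φ (γ : SL(2, ℤ)) (x0 Γ) = φ (Additive.ofMul γ) := by
  have hd : delta Γ (γ : SL(2, ℤ)) (x0 Γ)
      = (⟨(x0 Γ).out, out_x0_mem Γ⟩ : Γ)⁻¹ * γ * ⟨(x0 Γ).out, out_x0_mem Γ⟩ := by
    apply Subtype.ext
    simp [delta, smul_x0_of_mem Γ γ.2]
  simp [cocA, hd, ofMul_mul]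

/-- If the twisted cocycle vanishes on `S` and `S * T`, then `φ = 0`. -/
lemma eq_zero_of_twA_eq_zero (φ : Additive Γ →+ A) (v : SL(2, ℤ) ⧸ Γ → A)
    (hS : twA Γ φ v S = 0) (hU : twA Γ φ v (S * T) = 0) : φ = 0 := by
  have hall := cocycleA_eq_zero Γ (twA_mul Γ φ v) hS hU
  refine AddMonoidHom.ext fun a => ?_
  obtain ⟨γ, rfl⟩ := Additive.ofMul.surjective a
  have h := congrFun (hall (γ : SL(2, ℤ))) (x0 Γ)
  simp only [twA, Pi.add_apply, Pi.sub_apply, RA_apply, smul_x0_of_mem Γ γ.2, sub_self, add_zero,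
    cocA_x0_of_mem, Pi.zero_apply] at h
  simpa using h

/-- Naturality of `twA` in the coefficient group. -/
lemma twA_map {B : Type*} [AddCommGroup B] (f : A →+ B) (φ : Additive Γ →+ A)
    (v : SL(2, ℤ) ⧸ Γ → A) (g : SL(2, ℤ)) (x : SL(2, ℤ) ⧸ Γ) :
    twA Γ (f.comp φ) (fun y => f (v y)) g x = f (twA Γ φ v g x) := by
  simp [twA, cocA]

/-- For complex coefficients this is the twisted cocycle of `S21.GroupBound`. -/
lemma twA_eq_tw (φ : Additive Γ →+ ℂ) (v : V Γ) (g : SL(2, ℤ)) : twA Γ φ v g = tw Γ φ v g := rfl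

/-- `cocA φ (-1) = 0` when `φ (-1) = 0`. -/
lemma cocA_neg_one (hΓ : (-1 : SL(2, ℤ)) ∈ Γ) (φ : Additive Γ →+ A)
    (hφ : φ (Additive.ofMul (⟨-1, hΓ⟩ : Γ)) = 0) : cocA Γ φ (-1) = 0 := by
  funext x
  have hd : delta Γ (-1) x = ⟨-1, hΓ⟩ := by
    apply Subtype.ext
    simp [delta, neg_one_smul' Γ hΓ]
  simp [cocA, hd, hφ]

/-- `twA φ v (-1) = 0` when `φ (-1) = 0`. -/
lemma twA_neg_one (hΓ : (-1 : SL(2, ℤ)) ∈ Γ) (φ : Additive Γ →+ A)
    (hφ : φ (Additive.ofMul (⟨-1, hΓ⟩ : Γ)) = 0) (v : SL(2, ℤ) ⧸ Γ → A) :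
    twA Γ φ v (-1) = 0 := by
  funext x
  simp [twA, cocA_neg_one Γ hΓ φ hφ, neg_one_smul' Γ hΓ]

end

end Fermat.Agent.S16.LB
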