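import Mathlib

/-!
# Lifting orbit-sum-zero functions from `ZMod n` to `ℤ`
-/

set_option autoImplicit false

namespace Fermat.Agent.S16.LB

/-- Lift a function with `w x + w (s x) = 0` (and `w = 0` at fixed points of the involution `s`)
from `ZMod n` to `ℤ`. -/
theorem exists_lift_two {X : Type*} (e : X → ℕ) (he : Function.Injective e) {n : ℕ} [NeZero n]
    (s : X → X) (hs : ∀ x, s (s x) = x) (wb : X → ZMod n)
    (h1 : ∀ x, wb x + wb (s x) = 0) (h2 : ∀ x, s x = x → wb x = 0) :
    ∃ w : X → ℤ, (∀ x, w x + w (s x) = 0) ∧ ∀ x, ((w x : ℤ) : ZMod n) = wb x := by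
  refine ⟨fun x => if e x < e (s x) then ((wb x).val : ℤ)
    else if e (s x) < e x then -((wb (s x)).val : ℤ) else 0, ?_, ?_⟩
  · intro x
    simp only [hs]
    rcases lt_trichotomy (e x) (e (s x)) with h | h | h
    · simp [h, not_lt.mpr h.le]
    · simp [h]
    · simp [h, not_lt.mpr h.le]
  · intro x
    simp only
    rcases lt_trichotomy (e x) (e (s x)) with h | h | h
    · rw [if_pos h, Int.cast_natCast, ZMod.natCast_zmod_val]
    · have hx : s x = x := (he h).symm
      simp [h, h2 x hx]
    · have := h1 x
      rw [if_neg (not_lt.mpr h.le), if_pos h, Int.cast_neg, Int.cast_natCast,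
        ZMod.natCast_zmod_val]
      exact (eq_neg_of_add_eq_zero_left this).symm

/-- Lift a function with `w x + w (u x) + w (u (u x)) = 0` (and `w = 0` at fixed points of the
order-three map `u`) from `ZMod n` to `ℤ`. -/
theorem exists_lift_three {X : Type*} (e : X → ℕ) (he : Function.Injective e) {n : ℕ} [NeZero n]
    (u : X → X) (hu : ∀ x, u (u (u x)) = x) (wb : X → ZMod n)
    (h1 : ∀ x, wb x + wb (u x) + wb (u (u x)) = 0) (h2 : ∀ x, u x = x → wb x = 0) :
    ∃ w : X → ℤ, (∀ x, w x + w (u x) + w (u (u x)) = 0) ∧ ∀ x, ((w x : ℤ) : ZMod n) = wb x := by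
  refine ⟨fun x => if e x = e (u x) then 0
    else if e x < e (u x) ∧ e x < e (u (u x)) then ((wb x).val : ℤ)
    else if e (u x) < e x ∧ e (u x) < e (u (u x)) then
      -((wb (u x)).val : ℤ) - ((wb (u (u x))).val : ℤ)
    else ((wb x).val : ℤ), ?_, ?_⟩
  · intro x
    simp only [hu]
    by_cases hfix : u x = x
    · simp [hfix]
    · have hab : e x ≠ e (u x) := fun h => hfix (he h).symm
      have hbc : e (u x) ≠ e (u (u x)) := by
        intro h
        have h' : u x = u (u x) := he h
        have h3 : u (u x) = u (u (u x)) := congrArg u h'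
        rw [hu] at h3
        exact hfix (h'.trans h3)
      have hca : e (u (u x)) ≠ e x := by
        intro h
        have h' : u (u x) = x := he h
        have h3 : u (u (u x)) = u x := congrArg u h'
        rw [hu] at h3
        exact hfix h3.symm
      simp only [if_neg hab, if_neg hbc, if_neg hca]
      split_ifs <;> omega
  · intro x
    simp only
    by_cases hfix : u x = x
    · simp [hfix, h2 x hfix]
    · have hab : e x ≠ e (u x) := fun h => hfix (he h).symm
      simp only [if_neg hab]
      split_ifs with ha hb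
      · rw [Int.cast_natCast, ZMod.natCast_zmod_val]
      · have := h1 x
        rw [Int.cast_sub, Int.cast_neg, Int.cast_natCast, Int.cast_natCast,
          ZMod.natCast_zmod_val, ZMod.natCast_zmod_val]
        linear_combination -this
      · rw [Int.cast_natCast, ZMod.natCast_zmod_val]

end Fermat.Agent.S16.LB
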