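import Mathlib
import Fermat.Prelude.Def_ModularCurve_PeriodHomPair
import Fermat.Prelude.Def_ModularCurve_GenusNumerics
import Fermat.Agent.Lib.Gamma0Counts
import Fermat.Agent.S20
import Fermat.Agent.S21.Final
import Fermat.Agent.S21.GroupBoundGamma0
import Fermat.Agent.S16.LB.CocA
import Fermat.Agent.S16.LB.LiftAux

/-!
# S16 lower bound, piece (4): a hom `Γ₀(p) → ℤ/n` killing parabolic and elliptic elements is the
reduction of a `ℤ`-valued parabolic hom.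

Cocycle calculus of `S21.GroupBound` with coefficients `ZMod n`, plus the dimension equality
`dim Hom_par(Γ₀(p), ℂ) = 2 g` (S20 + S21), which makes `Theta` surjective onto the kernel of the
single cuspidal constraint.
-/

set_option autoImplicit false
set_option linter.unusedSectionVars false

open scoped MatrixGroups
open CongruenceSubgroup ModularCurve ModularCurve.Period ModularGroup
open Fermat.Agent.S21.GroupBound

namespace Fermat.Agent.S16.LB

noncomputable section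

/-- `φ` kills the parabolic (`tr² = 4`) and elliptic (`tr² = 1`, `tr = 0`) elements. -/
def KillsEllPar (Γ : Subgroup SL(2, ℤ)) {A : Type*} [AddCommGroup A] (φ : Additive Γ →+ A) : Prop :=
  ∀ γ : Γ, (((γ : SL(2, ℤ)) : Matrix (Fin 2) (Fin 2) ℤ).trace ^ 2 = 4 ∨
       ((γ : SL(2, ℤ)) : Matrix (Fin 2) (Fin 2) ℤ).trace ^ 2 = 1 ∨
       ((γ : SL(2, ℤ)) : Matrix (Fin 2) (Fin 2) ℤ).trace = 0) → φ (Additive.ofMul γ) = 0

lemma trace_neg_one_sq : ((-1 : SL(2, ℤ)) : Matrix (Fin 2) (Fin 2) ℤ).trace ^ 2 = 4 := by decide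

lemma trace_T_sq : ((T : SL(2, ℤ)) : Matrix (Fin 2) (Fin 2) ℤ).trace ^ 2 = 4 := by decide

lemma trace_S_zero : ((S : SL(2, ℤ)) : Matrix (Fin 2) (Fin 2) ℤ).trace = 0 := by decide

lemma trace_ST_sq : ((S * T : SL(2, ℤ)) : Matrix (Fin 2) (Fin 2) ℤ).trace ^ 2 = 1 := by decide

section General

variable (Γ : Subgroup SL(2, ℤ)) {A : Type*} [AddCommGroup A]

lemma cocA_of_fixed (φ : Additive Γ →+ A) (hφ : KillsEllPar Γ φ) (g : SL(2, ℤ))
    (hg : (g : Matrix (Fin 2) (Fin 2) ℤ).trace ^ 2 = 4 ∨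
      (g : Matrix (Fin 2) (Fin 2) ℤ).trace ^ 2 = 1 ∨ (g : Matrix (Fin 2) (Fin 2) ℤ).trace = 0)
    (x : SL(2, ℤ) ⧸ Γ) (hx : g • x = x) : cocA Γ φ g x = 0 := by
  apply hφ
  have : ((delta Γ g x : Γ) : SL(2, ℤ)) = x.out⁻¹ * g * x.out := by
    simp [delta, hx]
  rw [this, trace_conj]
  exact hg

lemma cocA_S_add (hΓ : (-1 : SL(2, ℤ)) ∈ Γ) (φ : Additive Γ →+ A) (hφ : KillsEllPar Γ φ)
    (x : SL(2, ℤ) ⧸ Γ) : cocA Γ φ S x + cocA Γ φ S (S • x) = 0 := by
  have h := cocA_mul Γ φ S S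
  have hSS : S * S = (-1 : SL(2, ℤ)) := by decide
  rw [hSS, cocA_neg_one Γ hΓ φ (hφ ⟨-1, hΓ⟩ (Or.inl trace_neg_one_sq))] at h
  have h2 := congrFun h x
  simp only [Pi.zero_apply, Pi.add_apply, RA_apply] at h2
  rw [add_comm]
  exact h2.symm

lemma cocA_U_add (hΓ : (-1 : SL(2, ℤ)) ∈ Γ) (φ : Additive Γ →+ A) (hφ : KillsEllPar Γ φ)
    (x : SL(2, ℤ) ⧸ Γ) :
    cocA Γ φ (S * T) x + cocA Γ φ (S * T) ((S * T) • x)
      + cocA Γ φ (S * T) ((S * T) • ((S * T) • x)) = 0 := by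
  have h1 := cocA_mul Γ φ (S * T) (S * T)
  have h2 := cocA_mul Γ φ (S * T * (S * T)) (S * T)
  have hUUU : S * T * (S * T) * (S * T) = (-1 : SL(2, ℤ)) := by decide
  rw [hUUU, cocA_neg_one Γ hΓ φ (hφ ⟨-1, hΓ⟩ (Or.inl trace_neg_one_sq)), h1] at h2
  have h3 := (congrFun h2 x).symm
  simp only [Pi.zero_apply, Pi.add_apply, RA_apply] at h3
  rw [← h3]
  abel

lemma cocA_ST_x0 (hT : T ∈ Γ) (φ : Additive Γ →+ A) (hφ : KillsEllPar Γ φ) :
    cocA Γ φ (S * T) (x0 Γ) = cocA Γ φ S (x0 Γ) := by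
  have h := congrFun (cocA_mul Γ φ S T) (x0 Γ)
  simp only [Pi.add_apply, RA_apply, smul_x0_of_mem Γ hT] at h
  have hT0 : cocA Γ φ T (x0 Γ) = 0 := by
    have h3 := cocA_x0_of_mem Γ φ ⟨T, hT⟩
    rw [h3]
    exact hφ ⟨T, hT⟩ (Or.inl trace_T_sq)
  rw [h, hT0, add_zero]

/-- Integrality of a complex twisted cocycle propagates from `S`, `S * T` to all of `SL(2, ℤ)`. -/
lemma tw_int (φ : Additive Γ →+ ℂ) (v : V Γ)
    (hS : ∀ x, ∃ m : ℤ, tw Γ φ v S x = m) (hU : ∀ x, ∃ m : ℤ, tw Γ φ v (S * T) x = m)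
    (g : SL(2, ℤ)) : ∀ x, ∃ m : ℤ, tw Γ φ v g x = m := by
  have h1 : tw Γ φ v 1 = 0 := by
    have := tw_mul Γ φ v 1 1
    rw [mul_one, R_one] at this
    simpa using this
  let H : Subgroup SL(2, ℤ) :=
    { carrier := {g | ∀ x, ∃ m : ℤ, tw Γ φ v g x = m}
      mul_mem' := by
        intro a b ha hb x
        obtain ⟨m1, hm1⟩ := ha (b • x)
        obtain ⟨m2, hm2⟩ := hb x
        refine ⟨m1 + m2, ?_⟩
        rw [tw_mul]
        simp only [Pi.add_apply, S21.GroupBound.R_apply, hm1, hm2, Int.cast_add]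
      one_mem' := by
        intro x
        exact ⟨0, by rw [h1]; simp⟩
      inv_mem' := by
        intro a ha x
        obtain ⟨m1, hm1⟩ := ha (a⁻¹ • x)
        refine ⟨-m1, ?_⟩
        have h2 := congrFun (tw_mul Γ φ v a⁻¹ a) (a⁻¹ • x)
        rw [inv_mul_cancel, h1] at h2
        simp only [Pi.zero_apply, Pi.add_apply, S21.GroupBound.R_apply, smul_inv_smul, hm1] at h2
        rw [Int.cast_neg]
        linear_combination -h2 }
  have hSH : S ∈ H := hS
  have hTH : T ∈ H := by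
    have h2 : S⁻¹ * (S * T) ∈ H := H.mul_mem (H.inv_mem hSH) hU
    simpa using h2
  have htop : H = ⊤ := by
    apply top_unique
    rw [← SpecialLinearGroup.SL2Z_generators, Subgroup.closure_le]
    intro a ha
    rcases ha with rfl | rfl
    · exact hSH
    · exact hTH
  have : g ∈ H := by rw [htop]; trivial
  exact this

end General

section Prime

variable (p : ℕ) [Fact p.Prime]

local instance neZero_of_fact_prime : NeZero p := ⟨(Fact.out : p.Prime).ne_zero⟩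

lemma T_mem_Gamma0 : (T : SL(2, ℤ)) ∈ Gamma0 p := by
  rw [Gamma0_mem]
  simp [ModularGroup.T]

lemma S_notMem_Gamma0 : (S : SL(2, ℤ)) ∉ Gamma0 p := by
  rw [Gamma0_mem]
  simp [ModularGroup.S]

lemma S_smul_x0_ne : S • x0 (Gamma0 p) ≠ x0 (Gamma0 p) := by
  intro h
  apply S_notMem_Gamma0 p
  have h' : ((S * 1 : SL(2, ℤ)) : SL(2, ℤ) ⧸ Gamma0 p) = ((1 : SL(2, ℤ)) : SL(2, ℤ) ⧸ Gamma0 p) := h
  rw [QuotientGroup.eq] at h'
  have h2 := (Gamma0 p).inv_mem h'
  simpa using h2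

lemma S_smul_S_smul (x : SL(2, ℤ) ⧸ Gamma0 p) : S • (S • x) = x := by
  rw [← mul_smul]
  have hSS : S * S = (-1 : SL(2, ℤ)) := by decide
  rw [hSS, neg_one_smul' _ (neg_one_mem_Gamma0 p)]

lemma U_smul_U_smul_U_smul (x : SL(2, ℤ) ⧸ Gamma0 p) :
    (S * T) • ((S * T) • ((S * T) • x)) = x := by
  rw [← mul_smul, ← mul_smul]
  have hUUU : S * T * (S * T) * (S * T) = (-1 : SL(2, ℤ)) := by decide
  rw [hUUU, neg_one_smul' _ (neg_one_mem_Gamma0 p)]

lemma cuspCount_prime : cuspCount p = 2 := by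
  have hp : p.Prime := Fact.out
  rw [cuspCount, hp.divisors, Finset.sum_pair hp.one_lt.ne]
  simp [Nat.div_self hp.pos]

lemma six_finrank_parabolicHoms :
    6 * Module.finrank ℂ (parabolicHoms ℂ (Gamma0 p) ℂ)
      + 3 * Nat.card (MulAction.fixedBy (SL(2, ℤ) ⧸ Gamma0 p) S)
      + 4 * Nat.card (MulAction.fixedBy (SL(2, ℤ) ⧸ Gamma0 p) (S * T))
      = Nat.card (SL(2, ℤ) ⧸ Gamma0 p) := by
  obtain ⟨hinj, hrange⟩ :=
    Fermat.Agent.S21.result_of_genus_le p (le_of_eq (Fermat.Agent.S20.result p).symm)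
  have := (Fermat.Agent.S21.finrank_cuspForm_le_genus p).1
  have h1 : Module.finrank ℂ (parabolicHoms ℂ (Gamma0 p) ℂ)
      = Module.finrank ℂ (CuspForm (Gamma0 p) 2) + Module.finrank ℂ (CuspForm (Gamma0 p) 2) := by
    rw [← hrange, LinearMap.finrank_range_of_inj hinj, Module.finrank_prod]
  have h2 := Fermat.Agent.S20.result p
  rw [genusFormula, cuspCount_prime p] at h2
  have hS := Fermat.Agent.Lib.Gamma0Counts.card_fixedBy_S p
  have hU := Fermat.Agent.Lib.Gamma0Counts.card_fixedBy_ST p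
  have hX := Fermat.Agent.Lib.Gamma0Counts.card_quotient p
  rw [hS, hU, hX, h1]
  have h3 : (6 * ((Module.finrank ℂ (CuspForm (Gamma0 p) 2) : ℚ)
      + (Module.finrank ℂ (CuspForm (Gamma0 p) 2) : ℚ)) + 3 * (nuTwo p : ℚ) + 4 * (nuThree p : ℚ))
      = (dedekindPsi p : ℚ) := by
    rw [h2]; push_cast; ring
  exact_mod_cast h3

/-- The cuspidal constraint `(a, b) ↦ b x₀ - a x₀`. -/
def lam : (Vm (Gamma0 p) × W (Gamma0 p)) →ₗ[ℂ] ℂ where
  toFun q := (q.2 : V (Gamma0 p)) (x0 (Gamma0 p)) - (q.1 : V (Gamma0 p)) (x0 (Gamma0 p))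
  map_add' q r := by
    simp only [Prod.fst_add, Prod.snd_add, Submodule.coe_add, Pi.add_apply]
    ring
  map_smul' c q := by
    simp only [Prod.smul_fst, Prod.smul_snd, Submodule.coe_smul, Pi.smul_apply, smul_eq_mul,
      RingHom.id_apply]
    ring

lemma lam_apply (q : Vm (Gamma0 p) × W (Gamma0 p)) :
    lam p q = (q.2 : V (Gamma0 p)) (x0 (Gamma0 p)) - (q.1 : V (Gamma0 p)) (x0 (Gamma0 p)) := rfl

lemma range_Theta_le_ker_lam :
    LinearMap.range (Theta (Gamma0 p) (neg_one_mem_Gamma0 p)) ≤ LinearMap.ker (lam p) := by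
  rintro _ ⟨q, rfl⟩
  rw [LinearMap.mem_ker, lam_apply, Theta_fst, Theta_snd]
  have h := congrFun (tw_mul (Gamma0 p) q.1.1 q.2 S T) (x0 (Gamma0 p))
  have hT0 : tw (Gamma0 p) q.1.1 q.2 T (x0 (Gamma0 p)) = 0 := by
    have h3 := coc_x0_of_mem (Gamma0 p) q.1.1 ⟨T, T_mem_Gamma0 p⟩
    simp only [tw, Pi.add_apply, Pi.sub_apply, S21.GroupBound.R_apply,
      smul_x0_of_mem _ (T_mem_Gamma0 p), sub_self, add_zero]
    rw [h3]
    exact q.1.2 ⟨T, T_mem_Gamma0 p⟩ trace_T_sq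
  simp only [Pi.add_apply, S21.GroupBound.R_apply, smul_x0_of_mem _ (T_mem_Gamma0 p)] at h
  rw [h, hT0]
  ring

lemma lam_surjective : Function.Surjective (lam p) := by
  classical
  let a0 : V (Gamma0 p) := fun x =>
    (if x = x0 (Gamma0 p) then (1 : ℂ) else 0) - (if x = S • x0 (Gamma0 p) then (1 : ℂ) else 0)
  have ha0 : a0 ∈ Vm (Gamma0 p) := by
    rw [mem_Vm]
    funext x
    have h1 : (S • x = x0 (Gamma0 p)) ↔ x = S • x0 (Gamma0 p) := by
      constructor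
      · intro h; rw [← h, S_smul_S_smul]
      · intro h; rw [h, S_smul_S_smul]
    have h2 : (S • x = S • x0 (Gamma0 p)) ↔ x = x0 (Gamma0 p) := (MulAction.injective S).eq_iff
    simp only [Pi.add_apply, S21.GroupBound.R_apply, Pi.zero_apply, a0, h1, h2]
    ring
  intro c
  refine ⟨(-c) • ((⟨a0, ha0⟩ : Vm (Gamma0 p)), (0 : W (Gamma0 p))), ?_⟩
  rw [map_smul, lam_apply]
  have hne : x0 (Gamma0 p) ≠ S • x0 (Gamma0 p) := fun h => S_smul_x0_ne p h.symm
  simp [a0, hne]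

theorem range_Theta_eq :
    LinearMap.range (Theta (Gamma0 p) (neg_one_mem_Gamma0 p)) = LinearMap.ker (lam p) := by
  have := finite_parabolicHoms (Gamma0 p)
  apply Submodule.eq_of_le_of_finrank_le (range_Theta_le_ker_lam p)
  have hΘ := LinearMap.finrank_range_add_finrank_ker (Theta (Gamma0 p) (neg_one_mem_Gamma0 p))
  rw [Module.finrank_prod, finrank_V] at hΘ
  have hk := finrank_ker_Theta_le (Gamma0 p) (neg_one_mem_Gamma0 p)
  have hl := LinearMap.finrank_range_add_finrank_ker (lam p)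
  rw [Module.finrank_prod] at hl
  have hl1 : Module.finrank ℂ (LinearMap.range (lam p)) = 1 := by
    rw [LinearMap.range_eq_top.mpr (lam_surjective p), finrank_top, Module.finrank_self]
  have hVm := finrank_Vm (Gamma0 p) (neg_one_mem_Gamma0 p)
  have hW := finrank_W (Gamma0 p) (neg_one_mem_Gamma0 p)
  have h6 := six_finrank_parabolicHoms p
  omega

/-- Over `ℂ`, every pair `(a, b) ∈ Vm × W` with `b x₀ = a x₀` is `(tw φ v S, tw φ v (S * T))`
for a parabolic hom `φ`. -/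
theorem exists_tw_eq (a b : V (Gamma0 p)) (ha : a ∈ Vm (Gamma0 p)) (hb : b ∈ W (Gamma0 p))
    (hab : b (x0 (Gamma0 p)) = a (x0 (Gamma0 p))) :
    ∃ φ : Additive (Gamma0 p) →+ ℂ, IsParabolicHom (Gamma0 p) φ ∧ ∃ v : V (Gamma0 p),
      tw (Gamma0 p) φ v S = a ∧ tw (Gamma0 p) φ v (S * T) = b := by
  have hmem : ((⟨a, ha⟩, ⟨b, hb⟩) : Vm (Gamma0 p) × W (Gamma0 p)) ∈ LinearMap.ker (lam p) := by
    rw [LinearMap.mem_ker, lam_apply]
    simp only
    rw [hab, sub_self]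
  rw [← range_Theta_eq] at hmem
  obtain ⟨q, hq⟩ := hmem
  refine ⟨q.1.1, q.1.2, q.2, ?_, ?_⟩
  · have h := congrArg (fun r : Vm (Gamma0 p) × W (Gamma0 p) => (r.1 : V (Gamma0 p))) hq
    simpa [Theta_fst] using h
  · have h := congrArg (fun r : Vm (Gamma0 p) × W (Gamma0 p) => (r.2 : V (Gamma0 p))) hq
    simpa [Theta_snd] using h

/-- **Parabolic lift.** A homomorphism `Γ₀(p) → ℤ/n` that kills the parabolic and elliptic
elements is the reduction modulo `n` of a `ℤ`-valued parabolic homomorphism. -/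
theorem exists_parabolic_lift_aux (n : ℕ) [NeZero n]
    (ψ : Additive (Gamma0 p) →+ ZMod n) (hψ : KillsEllPar (Gamma0 p) ψ) :
    ∃ φ : Additive (Gamma0 p) →+ ℂ, φ ∈ parabolicHoms ℂ (Gamma0 p) ℂ ∧
      ∀ γ : Gamma0 p, ∃ m : ℤ, φ (Additive.ofMul γ) = (m : ℂ) ∧
        (m : ZMod n) = ψ (Additive.ofMul γ) := by
  classical
  have hΓ := neg_one_mem_Gamma0 p
  have hT := T_mem_Gamma0 p
  -- an enumeration of the cosets
  obtain ⟨m, ⟨e0⟩⟩ := Finite.exists_equiv_fin (SL(2, ℤ) ⧸ Gamma0 p)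
  let e : SL(2, ℤ) ⧸ Gamma0 p → ℕ := fun x => (e0 x : ℕ)
  have he : Function.Injective e := fun x y h => e0.injective (Fin.ext h)
  -- integral lifts of the two cocycle values
  obtain ⟨wS0, hwS0, hwS0c⟩ := exists_lift_two e he (fun x => S • x) (S_smul_S_smul p)
    (cocA (Gamma0 p) ψ S) (cocA_S_add (Gamma0 p) hΓ ψ hψ)
    (fun x hx => cocA_of_fixed (Gamma0 p) ψ hψ S (Or.inr (Or.inr trace_S_zero)) x hx)
  obtain ⟨wU, hwU, hwUc⟩ := exists_lift_three e he (fun x => (S * T) • x)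
    (U_smul_U_smul_U_smul p) (cocA (Gamma0 p) ψ (S * T)) (cocA_U_add (Gamma0 p) hΓ ψ hψ)
    (fun x hx => cocA_of_fixed (Gamma0 p) ψ hψ (S * T) (Or.inr (Or.inl trace_ST_sq)) x hx)
  -- adjust `wS0` at `x₀`, `S x₀` so that the cuspidal constraint holds exactly
  set d : ℤ := wU (x0 (Gamma0 p)) - wS0 (x0 (Gamma0 p)) with hd_def
  have hd : ((d : ℤ) : ZMod n) = 0 := by
    rw [hd_def, Int.cast_sub, hwUc, hwS0c, cocA_ST_x0 (Gamma0 p) hT ψ hψ, sub_self]
  let wS : SL(2, ℤ) ⧸ Gamma0 p → ℤ := fun x =>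
    wS0 x + d * ((if x = x0 (Gamma0 p) then 1 else 0) - (if x = S • x0 (Gamma0 p) then 1 else 0))
  have hne : x0 (Gamma0 p) ≠ S • x0 (Gamma0 p) := fun h => S_smul_x0_ne p h.symm
  have hwS : ∀ x, wS x + wS (S • x) = 0 := by
    intro x
    have h1 : (S • x = x0 (Gamma0 p)) ↔ x = S • x0 (Gamma0 p) := by
      constructor
      · intro h; rw [← h, S_smul_S_smul]
      · intro h; rw [h, S_smul_S_smul]
    have h2 : (S • x = S • x0 (Gamma0 p)) ↔ x = x0 (Gamma0 p) := (MulAction.injective S).eq_iff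
    have h0 := hwS0 x
    simp only [wS, h1, h2]
    linear_combination h0
  have hwSc : ∀ x, ((wS x : ℤ) : ZMod n) = cocA (Gamma0 p) ψ S x := by
    intro x
    simp only [wS, Int.cast_add, Int.cast_mul, hd, zero_mul, add_zero]
    exact hwS0c x
  have hwSx0 : wS (x0 (Gamma0 p)) = wU (x0 (Gamma0 p)) := by
    simp only [wS, if_true, if_neg hne, hd_def]
    ring
  -- the complex solution
  obtain ⟨φ, hφpar, v, hvS, hvU⟩ := exists_tw_eq p (fun x => (wS x : ℂ)) (fun x => (wU x : ℂ))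
    (by
      rw [mem_Vm]; funext x
      simp only [Pi.add_apply, S21.GroupBound.R_apply, Pi.zero_apply]
      exact_mod_cast hwS x)
    (by
      rw [mem_W]; funext x
      simp only [Pi.add_apply, S21.GroupBound.R_apply, Pi.zero_apply]
      exact_mod_cast hwU x)
    (by show ((wU (x0 (Gamma0 p)) : ℤ) : ℂ) = ((wS (x0 (Gamma0 p)) : ℤ) : ℂ); rw [hwSx0])
  -- integrality of the cocycle, hence of `φ` and of `v - v x₀`
  have hint : ∀ g x, ∃ k : ℤ, tw (Gamma0 p) φ v g x = k :=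
    tw_int (Gamma0 p) φ v (fun x => ⟨wS x, by rw [hvS]⟩) (fun x => ⟨wU x, by rw [hvU]⟩)
  have hφint : ∀ γ : Gamma0 p, ∃ k : ℤ, φ (Additive.ofMul γ) = k := by
    intro γ
    obtain ⟨k, hk⟩ := hint γ (x0 (Gamma0 p))
    refine ⟨k, ?_⟩
    rw [← hk]
    simp only [tw, Pi.add_apply, Pi.sub_apply, S21.GroupBound.R_apply,
      smul_x0_of_mem (Gamma0 p) γ.2, sub_self, add_zero, coc_x0_of_mem]
  choose φZ hφZ using hφint
  let φZ' : Additive (Gamma0 p) →+ ℤ :=
    { toFun := fun a => φZ (Additive.toMul a)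
      map_zero' := by
        apply Int.cast_injective (α := ℂ)
        show ((φZ (Additive.toMul 0) : ℤ) : ℂ) = ((0 : ℤ) : ℂ)
        rw [← hφZ, Int.cast_zero]
        exact map_zero φ
      map_add' := by
        intro a b
        apply Int.cast_injective (α := ℂ)
        rw [Int.cast_add, ← hφZ, ← hφZ, ← hφZ]
        exact map_add φ a b }
  have hφZ' : ∀ a : Additive (Gamma0 p), ((φZ' a : ℤ) : ℂ) = φ a := by
    intro a
    exact (hφZ (Additive.toMul a)).symm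
  have hvint : ∀ x, ∃ k : ℤ, v x - v (x0 (Gamma0 p)) = k := by
    intro x
    obtain ⟨g, rfl⟩ := exists_smul_x0 (Gamma0 p) x
    obtain ⟨k, hk⟩ := hint g (x0 (Gamma0 p))
    refine ⟨k - φZ' (Additive.ofMul (delta (Gamma0 p) g (x0 (Gamma0 p)))), ?_⟩
    have h1 : tw (Gamma0 p) φ v g (x0 (Gamma0 p))
        = φ (Additive.ofMul (delta (Gamma0 p) g (x0 (Gamma0 p))))
          + (v (g • x0 (Gamma0 p)) - v (x0 (Gamma0 p))) := rfl
    rw [Int.cast_sub, hφZ', ← hk, h1]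
    ring
  choose vZ hvZ using hvint
  -- the integral twisted cocycle takes the prescribed values at `S` and `S * T`
  have hcast : ∀ g x, ((twA (Gamma0 p) φZ' vZ g x : ℤ) : ℂ) = tw (Gamma0 p) φ v g x := by
    intro g x
    simp only [twA, cocA, tw, coc, Pi.add_apply, Pi.sub_apply, RA_apply, S21.GroupBound.R_apply,
      Int.cast_add, Int.cast_sub, hφZ', ← hvZ]
    ring
  have hZS : twA (Gamma0 p) φZ' vZ S = wS := by
    funext x
    apply Int.cast_injective (α := ℂ)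
    rw [hcast, hvS]
  have hZU : twA (Gamma0 p) φZ' vZ (S * T) = wU := by
    funext x
    apply Int.cast_injective (α := ℂ)
    rw [hcast, hvU]
  -- reduce modulo `n`
  have hred : (Int.castAddHom (ZMod n)).comp φZ' - ψ = 0 := by
    apply eq_zero_of_twA_eq_zero (Gamma0 p) _ ((fun y => Int.castAddHom (ZMod n) (vZ y)) - 0)
    · rw [twA_sub]
      funext x
      rw [Pi.sub_apply, twA_map, hZS, twA_zero_right]
      simp only [Int.coe_castAddHom, Pi.zero_apply]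
      rw [hwSc x, sub_self]
    · rw [twA_sub]
      funext x
      rw [Pi.sub_apply, twA_map, hZU, twA_zero_right]
      simp only [Int.coe_castAddHom, Pi.zero_apply]
      rw [hwUc x, sub_self]
  refine ⟨φ, hφpar, fun γ => ⟨φZ γ, hφZ γ, ?_⟩⟩
  have h := congrArg (fun h : Additive (Gamma0 p) →+ ZMod n => h (Additive.ofMul γ)) hred
  simp only [AddMonoidHom.sub_apply, AddMonoidHom.comp_apply, Int.coe_castAddHom,
    AddMonoidHom.zero_apply] at h
  exact sub_eq_zero.mp h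

end Prime

/-- **Parabolic lift** (frozen skeleton signature). -/
theorem exists_parabolic_lift (p : ℕ) [Fact p.Prime] (n : ℕ) [NeZero n]
    (ψ : Additive (Gamma0 p) →+ ZMod n)
    (hψ : ∀ γ : Gamma0 p,
      (((γ : SL(2, ℤ)) : Matrix (Fin 2) (Fin 2) ℤ).trace ^ 2 = 4 ∨
       ((γ : SL(2, ℤ)) : Matrix (Fin 2) (Fin 2) ℤ).trace ^ 2 = 1 ∨
       ((γ : SL(2, ℤ)) : Matrix (Fin 2) (Fin 2) ℤ).trace = 0) → ψ (Additive.ofMul γ) = 0) :
    ∃ φ : Additive (Gamma0 p) →+ ℂ, φ ∈ parabolicHoms ℂ (Gamma0 p) ℂ ∧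
      ∀ γ : Gamma0 p, ∃ m : ℤ, φ (Additive.ofMul γ) = (m : ℂ) ∧
        (m : ZMod n) = ψ (Additive.ofMul γ) :=
  exists_parabolic_lift_aux p n ψ hψ

end

end Fermat.Agent.S16.LB
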