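import Mathlib
import Fermat.Prelude.Def_CuspForm_HeckeLocal
import Fermat.Prelude.Def_CuspForm_HeckeEvalForms
import Fermat.Prelude.Def_HeckeGalois_EichlerShimura
import Fermat.Prelude.Def_ModularCurve_ModularUnit
import Fermat.Agent.S16.LB.Psi
import Fermat.Agent.S16.LB.HeckeMul
import Fermat.Agent.S16.LB.HeckePeriod
import Fermat.Agent.S16.LB.Lift
import Fermat.Agent.S21
import Fermat.Agent.S23

/-!
# S16 lower bound: `heckeEvalForms p 2 Q = 0 → eisensteinNumerator p ∣ ev Q`.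

Assembly.  `θ : Additive (ZMod p)ˣ →+ ZMod n` (`n = eisensteinNumerator p`) is the additive form
of the character `χ` of `Psi.exists_chi`.  A pair `(f, g)` of cusp forms is `c`-good if its
`periodHomPair` is `ℤ`-valued and reduces mod `n` to `c • (θ ∘ ψ)`.  Hecke operators multiply the
goodness constant by the Eisenstein eigenvalue.
-/

set_option autoImplicit false

open scoped MatrixGroups
open CongruenceSubgroup ModularCurve ModularCurve.Period ModularForm Matrix.SpecialLinearGroup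
open Fermat.Agent.S22.HeckePerm

namespace Fermat.Agent.S16.LB

section Good

variable (p : ℕ) [Fact p.Prime] {n : ℕ} (θ : Additive (ZMod p)ˣ →+ ZMod n)

/-- `(f, g)` is `c`-good: its period homomorphism is integer valued and reduces to `c • (θ ∘ ψ)`
modulo `n`. -/
def Good (c : ℤ) (f g : CuspForm (Gamma0 p) 2) : Prop :=
  ∀ γ : Gamma0 p, ∃ m : ℤ, periodHomPair p (f, g) (Additive.ofMul γ) = (m : ℂ) ∧
    (m : ZMod n) = (c : ZMod n) * θ (Additive.ofMul (psiUnit p γ))

/-- The operator `t` multiplies goodness constants by `c`. -/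
def Compat (c : ℤ) (t : Module.End ℂ (CuspForm (Gamma0 p) 2)) : Prop :=
  ∀ (d : ℤ) (f g : CuspForm (Gamma0 p) 2), Good p θ d f g → Good p θ (c * d) (t f) (t g)

variable {p θ}

theorem compat_algebraMap (a : ℤ) :
    Compat p θ a (algebraMap ℤ (Module.End ℂ (CuspForm (Gamma0 p) 2)) a) := by
  intro d f g h γ
  obtain ⟨m, hm1, hm2⟩ := h γ
  refine ⟨a * m, ?_, ?_⟩
  · rw [Module.algebraMap_end_apply, Module.algebraMap_end_apply]
    have h1 : ((a • f, a • g) : CuspForm (Gamma0 p) 2 × CuspForm (Gamma0 p) 2) = a • (f, g) := rfl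
    rw [h1, map_zsmul, AddMonoidHom.smul_apply, hm1]
    push_cast
    rw [zsmul_eq_mul]
  · push_cast
    rw [hm2]
    ring

theorem compat_add {c₁ c₂ : ℤ} {t₁ t₂ : Module.End ℂ (CuspForm (Gamma0 p) 2)}
    (h₁ : Compat p θ c₁ t₁) (h₂ : Compat p θ c₂ t₂) : Compat p θ (c₁ + c₂) (t₁ + t₂) := by
  intro d f g h γ
  obtain ⟨m₁, hm₁, hm₁'⟩ := h₁ d f g h γ
  obtain ⟨m₂, hm₂, hm₂'⟩ := h₂ d f g h γ
  refine ⟨m₁ + m₂, ?_, ?_⟩
  · rw [LinearMap.add_apply, LinearMap.add_apply]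
    have h1 : ((t₁ f + t₂ f, t₁ g + t₂ g) : CuspForm (Gamma0 p) 2 × CuspForm (Gamma0 p) 2)
        = (t₁ f, t₁ g) + (t₂ f, t₂ g) := rfl
    rw [h1, map_add, AddMonoidHom.add_apply, hm₁, hm₂]
    push_cast
    rfl
  · push_cast
    rw [hm₁', hm₂']
    push_cast
    ring

theorem compat_mul {c₁ c₂ : ℤ} {t₁ t₂ : Module.End ℂ (CuspForm (Gamma0 p) 2)}
    (h₁ : Compat p θ c₁ t₁) (h₂ : Compat p θ c₂ t₂) : Compat p θ (c₁ * c₂) (t₁ * t₂) := by
  intro d f g h
  have h3 := h₁ (c₂ * d) (t₂ f) (t₂ g) (h₂ d f g h)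
  rw [← mul_assoc] at h3
  exact h3

theorem sum_theta_psi {ι : Type*} [Fintype ι] (γ' : ι → Gamma0 p) :
    ∑ x, θ (Additive.ofMul (psiUnit p (γ' x)))
      = θ (Additive.ofMul (∏ x, psiUnit p (γ' x))) := by
  rw [ofMul_prod, map_sum]

theorem compat_heckeT {q : ℕ} (hq : q.Prime) (hqp : ¬ q ∣ p) :
    Compat p θ (1 + (q : ℤ)) (CuspForm.heckeTLin 2 hq hqp) := by
  haveI : NeZero q := ⟨hq.ne_zero⟩
  intro d f g h γ
  obtain ⟨σ, γ'', hγ'', hrel⟩ := exists_perm_T hq hqp (γ : SL(2, ℤ)) γ.2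
  let γ' : OnePoint (ZMod q) → Gamma0 p := fun x => ⟨γ'' x, hγ'' x⟩
  have hrel' : ∀ x, tRep q x * mapGL ℝ (γ : SL(2, ℤ))
      = mapGL ℝ ((γ' x : Gamma0 p) : SL(2, ℤ)) * tRep q (σ x) := hrel
  have hqp' : q ≠ p := fun e => hqp (e ▸ dvd_rfl)
  rw [periodHomPair_heckeT hq hqp f g γ σ γ' hrel']
  choose m hm1 hm2 using fun x => h (γ' x)
  refine ⟨∑ x, m x, ?_, ?_⟩
  · push_cast
    exact Finset.sum_congr rfl fun x _ => hm1 x
  · push_cast
    rw [Finset.sum_congr rfl fun x _ => hm2 x, ← Finset.mul_sum, sum_theta_psi,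
      prod_psiUnit_T p hq hqp' γ σ γ' hrel', ofMul_pow, map_nsmul, nsmul_eq_mul]
    push_cast
    ring

theorem compat_heckeU {q : ℕ} (hq : q.Prime) (hqp : q ∣ p) :
    Compat p θ 1 (CuspForm.heckeULin 2 hqp) := by
  have hqeq : q = p := (Nat.prime_dvd_prime_iff_eq hq (Fact.out : p.Prime)).mp hqp
  subst hqeq
  haveI : NeZero q := ⟨hq.ne_zero⟩
  intro d f g h γ
  obtain ⟨σ, γ'', hγ'', hrel⟩ := exists_perm_U (N := q) hqp (γ : SL(2, ℤ)) γ.2
  let γ' : ZMod q → Gamma0 q := fun x => ⟨γ'' x, hγ'' x⟩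
  have hrel' : ∀ x : ZMod q, heckeMatrix q x.val * mapGL ℝ (γ : SL(2, ℤ))
      = mapGL ℝ ((γ' x : Gamma0 q) : SL(2, ℤ)) * heckeMatrix q (σ x).val := hrel
  rw [periodHomPair_heckeU hqp f g γ σ γ' hrel']
  choose m hm1 hm2 using fun x => h (γ' x)
  refine ⟨∑ x, m x, ?_, ?_⟩
  · push_cast
    exact Finset.sum_congr rfl fun x _ => hm1 x
  · push_cast
    rw [Finset.sum_congr rfl fun x _ => hm2 x, ← Finset.mul_sum, sum_theta_psi,
      prod_psiUnit_U q γ σ γ' hrel']
    ring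

variable (p θ)

/-- Every Hecke polynomial `Q` acts compatibly with constant `ev Q`. -/
theorem compat_eval (Q : ModularCurve.HeckeAlg) :
    Compat p θ (MvPolynomial.aeval (ModularCurve.eisensteinSystem p) Q)
      ((CuspForm.heckeEvalForms p 2 Q : CuspForm.heckeAlgebra p 2 ∅) :
        Module.End ℂ (CuspForm (Gamma0 p) 2)) := by
  induction Q using MvPolynomial.induction_on with
  | C a =>
    rw [CuspForm.heckeEvalForms_C, MvPolynomial.aeval_C, Subalgebra.coe_algebraMap]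
    exact compat_algebraMap a
  | add P Q hP hQ =>
    rw [map_add, map_add, Subalgebra.coe_add]
    exact compat_add hP hQ
  | mul_X P ℓ hP =>
    rw [map_mul, map_mul, Subalgebra.coe_mul]
    refine compat_mul hP ?_
    have hX : CuspForm.heckeEvalForms p 2 (MvPolynomial.X ℓ) = CuspForm.heckeFormsGen p 2 ℓ :=
      CuspForm.heckeEvalForms_heckeGen p 2 ℓ
    rw [hX, MvPolynomial.aeval_X]
    by_cases hℓ : (ℓ : ℕ) ∣ p
    · rw [CuspForm.heckeFormsGen_of_dvd hℓ, ModularCurve.eisensteinSystem_of_dvd hℓ,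
        CuspForm.heckeAlgebra.coe_U]
      exact compat_heckeU ℓ.2 hℓ
    · rw [CuspForm.heckeFormsGen_of_not_dvd hℓ, ModularCurve.eisensteinSystem_of_not_dvd hℓ,
        CuspForm.heckeAlgebra.coe_T]
      exact compat_heckeT ℓ.2 hℓ

end Good

theorem eisensteinNumerator_pos (p : ℕ) [Fact p.Prime] : 0 < ModularCurve.eisensteinNumerator p := by
  have hp : 2 ≤ p := (Fact.out : p.Prime).two_le
  unfold ModularCurve.eisensteinNumerator
  exact Nat.div_pos (Nat.le_of_dvd (by omega) (Nat.gcd_dvd_left _ _))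
    (Nat.gcd_pos_of_pos_left _ (by omega))

/-- **Lower bound for S16**: the Eisenstein character `T_ℓ ↦ 1 + ℓ`, `U_p ↦ 1` of the abstract
Hecke algebra factors through the Hecke algebra of `S₂(Γ₀(p))` modulo `eisensteinNumerator p`. -/
theorem lower_bound (p : ℕ) [Fact p.Prime] (Q : ModularCurve.HeckeAlg)
    (hQ : CuspForm.heckeEvalForms p 2 Q = 0) :
    ((ModularCurve.eisensteinNumerator p : ℕ) : ℤ)
      ∣ MvPolynomial.aeval (ModularCurve.eisensteinSystem p) Q := by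
  haveI : NeZero (ModularCurve.eisensteinNumerator p) := ⟨(eisensteinNumerator_pos p).ne'⟩
  obtain ⟨χ, hχsurj, hχ12⟩ := exists_chi p
  -- additive form of `χ`
  let θ : Additive (ZMod p)ˣ →+ ZMod (ModularCurve.eisensteinNumerator p) :=
    MonoidHom.toAdditiveLeft χ
  have hθ : ∀ u : (ZMod p)ˣ, θ (Additive.ofMul u) = Multiplicative.toAdd (χ u) := fun u => rfl
  let ψ : Additive (Gamma0 p) →+ ZMod (ModularCurve.eisensteinNumerator p) :=
    θ.comp (MonoidHom.toAdditive (psiUnit p))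
  have hψ : ∀ γ : Gamma0 p, ψ (Additive.ofMul γ) = θ (Additive.ofMul (psiUnit p γ)) :=
    fun γ => rfl
  -- the Shimura class lifts to an integral parabolic class
  obtain ⟨φ, hφpar, hφ⟩ := exists_parabolic_lift p (ModularCurve.eisensteinNumerator p) ψ
    (fun γ hγ => by
      rw [hψ, hθ, hχ12 _ (psiUnit_pow_twelve p γ hγ)]
      rfl)
  -- which is a period class
  have hrange := (Fermat.Agent.S21.result p).2
  rw [← hrange] at hφpar
  obtain ⟨⟨f₀, g₀⟩, hfg⟩ := hφpar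
  have hgood : Good p θ 1 f₀ g₀ := by
    intro γ
    obtain ⟨m, hm1, hm2⟩ := hφ γ
    refine ⟨m, ?_, ?_⟩
    · rw [hfg]
      exact hm1
    · rw [hm2, hψ]
      push_cast
      ring
  have hcompat := compat_eval p θ Q 1 f₀ g₀ hgood
  rw [hQ] at hcompat
  -- a generator of the target
  obtain ⟨u, hu⟩ := hχsurj (Multiplicative.ofAdd 1)
  obtain ⟨γ, hγ⟩ := psiUnit_surjective p u
  obtain ⟨m, hm1, hm2⟩ := hcompat γ
  have hzero : periodHomPair p
      ((((0 : CuspForm.heckeAlgebra p 2 ∅) : Module.End ℂ (CuspForm (Gamma0 p) 2)) f₀),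
        (((0 : CuspForm.heckeAlgebra p 2 ∅) : Module.End ℂ (CuspForm (Gamma0 p) 2)) g₀))
      (Additive.ofMul γ) = 0 := by
    have h0 : ((((0 : CuspForm.heckeAlgebra p 2 ∅) : Module.End ℂ (CuspForm (Gamma0 p) 2)) f₀),
        (((0 : CuspForm.heckeAlgebra p 2 ∅) : Module.End ℂ (CuspForm (Gamma0 p) 2)) g₀))
        = (0 : CuspForm (Gamma0 p) 2 × CuspForm (Gamma0 p) 2) := rfl
    rw [h0, map_zero]
    rfl
  rw [hzero] at hm1
  have hm0 : m = 0 := by
    have : ((m : ℤ) : ℂ) = 0 := hm1.symm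
    exact_mod_cast this
  rw [hm0, hγ, hθ, hu] at hm2
  have hfinal : ((MvPolynomial.aeval (ModularCurve.eisensteinSystem p) Q : ℤ) :
      ZMod (ModularCurve.eisensteinNumerator p)) = 0 := by
    have h1 : Multiplicative.toAdd (Multiplicative.ofAdd
        (1 : ZMod (ModularCurve.eisensteinNumerator p))) = 1 := rfl
    rw [h1] at hm2
    push_cast at hm2
    rw [mul_one, mul_one] at hm2
    exact hm2.symm
  exact (ZMod.intCast_zmod_eq_zero_iff_dvd _ _).mp hfinal

/-- The same at the level of the lattice Hecke algebra (the ring of S16). -/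
theorem lower_bound_lattice (p : ℕ) [Fact p.Prime] (Q : ModularCurve.HeckeAlg)
    (hQ : ((CuspForm.latticeRestrictHom p ∅).toRingHom.comp (CuspForm.heckeEvalForms p 2)) Q = 0) :
    ((ModularCurve.eisensteinNumerator p : ℕ) : ℤ)
      ∣ MvPolynomial.aeval (ModularCurve.eisensteinSystem p) Q := by
  refine lower_bound p Q ?_
  have hinj := (CuspForm.latticeRestrictHom_bijective p ∅ (Fermat.Agent.S23.result p)).1
  apply hinj
  rw [map_zero]
  exact hQ

end Fermat.Agent.S16.LB
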